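import Mathlib
import Fermat.Agent.MUL.Lib.BadRed.Mod.UParamSeries
import Fermat.Agent.MUL.Orig.Lib.FF.Value

section MergeWrap_E_S15_EtaNorm -- from E/S15/EtaNorm.lean

set_option autoImplicit false
set_option linter.unusedSectionVars false
set_option linter.style.haveILetI false

noncomputable section

namespace Fermat.Agent.ES15

open PowerSeries Filter
open scoped PowerSeries.WithPiTopology Topology

section Alg

variable {K : Type*} [Field K]

/-- the "norm" `f ↦ ∏_{b<r} f(ζ^b X)`. -/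
def enNrm (r : ℕ) (ζ : K) : K⟦X⟧ →* K⟦X⟧ where
  toFun f := ∏ b ∈ Finset.range r, rescale (ζ ^ b) f
  map_one' := by simp
  map_mul' f g := by simp [Finset.prod_mul_distrib]

theorem enNrm_apply (r : ℕ) (ζ : K) (f : K⟦X⟧) :
    enNrm r ζ f = ∏ b ∈ Finset.range r, rescale (ζ ^ b) f := rfl

/-- `∏_{b<r} (1 - ξ^b Y) = 1 - Y^r` for a primitive `r`-th root of unity `ξ`. -/
theorem en_prod_one_sub {S : Type*} [CommRing S] [IsDomain S] {r : ℕ} (hr : 0 < r) {ξ : S}
    (hξ : IsPrimitiveRoot ξ r) (Y : S) :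
    ∏ b ∈ Finset.range r, (1 - ξ ^ b * Y) = 1 - Y ^ r := by
  have h := X_pow_sub_C_eq_prod hξ hr (rfl : Y ^ r = Y ^ r)
  have h2 := congrArg (Polynomial.eval 1) h
  rw [Polynomial.eval_prod] at h2
  simp only [Polynomial.eval_sub, Polynomial.eval_pow, Polynomial.eval_X, Polynomial.eval_C,
    one_pow] at h2
  exact h2.symm

theorem en_rescale_one_sub_X_pow (a : K) (m : ℕ) :
    rescale a ((1 : K⟦X⟧) - X ^ m) = 1 - C (a ^ m) * X ^ m := by
  rw [map_sub, map_one, map_pow, rescale_X, mul_pow, ← map_pow]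

/-- `N(1 - X^m) = 1 - X^{mr}` for `r ∤ m`, `r` prime. -/
theorem enNrm_one_sub_X_pow_of_not_dvd {r : ℕ} (hr : r.Prime) {ζ : K} (hζ : IsPrimitiveRoot ζ r)
    {m : ℕ} (hm : ¬ r ∣ m) :
    enNrm r ζ ((1 : K⟦X⟧) - X ^ m) = 1 - X ^ (r * m) := by
  have hcop : Nat.Coprime m r := ((Nat.Prime.coprime_iff_not_dvd hr).mpr hm).symm
  have hξ : IsPrimitiveRoot (ζ ^ m) r := hζ.pow_of_coprime m hcop
  have hξ' : IsPrimitiveRoot (C (ζ ^ m) : K⟦X⟧) r :=
    hξ.map_of_injective (f := (C : K →+* K⟦X⟧)) PowerSeries.C_injective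
  have h := en_prod_one_sub hr.pos hξ' ((X : K⟦X⟧) ^ m)
  rw [enNrm_apply, pow_mul', ← h]
  refine Finset.prod_congr rfl fun b _ => ?_
  rw [en_rescale_one_sub_X_pow, ← pow_mul, mul_comm b m, pow_mul, map_pow]

/-- `rescale` by an `r`-th root of unity fixes the series in `X^r`. -/
theorem en_rescale_expand {r : ℕ} (hr : r ≠ 0) {a : K} (ha : a ^ r = 1) (f : K⟦X⟧) :
    rescale a (expand r hr f) = expand r hr f := by
  ext n
  rw [coeff_rescale]
  by_cases hn : r ∣ n
  · obtain ⟨k, rfl⟩ := hn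
    rw [pow_mul, ha, one_pow, one_mul]
  · rw [coeff_expand_of_not_dvd r hr f hn, mul_zero]

theorem enNrm_expand {r : ℕ} (hr : r ≠ 0) {ζ : K} (hζ : ζ ^ r = 1) (f : K⟦X⟧) :
    enNrm r ζ (expand r hr f) = (expand r hr f) ^ r := by
  rw [enNrm_apply]
  have : ∀ b ∈ Finset.range r, rescale (ζ ^ b) (expand r hr f) = expand r hr f := by
    intro b _
    apply en_rescale_expand
    rw [← pow_mul, mul_comm, pow_mul, hζ, one_pow]
  rw [Finset.prod_congr rfl this, Finset.prod_const, Finset.card_range]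

theorem en_expand_one_sub_X_pow (r : ℕ) (hr : r ≠ 0) (m : ℕ) :
    expand r hr ((1 : K⟦X⟧) - X ^ m) = 1 - X ^ (r * m) := by
  rw [map_sub, map_one, map_pow, expand_X, ← pow_mul]

end Alg

section Top

variable {K : Type*} [Field K] [TopologicalSpace K] [IsTopologicalRing K] [T2Space K]

omit [IsTopologicalRing K] [T2Space K] in
/-- continuity into a power series ring is coefficientwise. -/
theorem en_continuous_of_coeff {A : Type*} [TopologicalSpace A] (g : A → K⟦X⟧)
    (h : ∀ d : ℕ, Continuous fun a => coeff d (g a)) : Continuous g := by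
  rw [continuous_iff_continuousAt]
  intro a
  show Tendsto g (𝓝 a) (𝓝 (g a))
  rw [PowerSeries.WithPiTopology.tendsto_iff_coeff_tendsto]
  intro d
  exact (h d).continuousAt

omit [T2Space K] in
theorem en_continuous_rescale (a : K) : Continuous (rescale a : K⟦X⟧ → K⟦X⟧) := by
  apply en_continuous_of_coeff
  intro d
  simp only [coeff_rescale]
  exact continuous_const.mul (PowerSeries.WithPiTopology.continuous_coeff K d)

omit [IsTopologicalRing K] [T2Space K] in
theorem en_continuous_expand (d : ℕ) (hd : d ≠ 0) :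
    Continuous (expand d hd : K⟦X⟧ → K⟦X⟧) := by
  apply en_continuous_of_coeff
  intro n
  by_cases hn : d ∣ n
  · obtain ⟨m, rfl⟩ := hn
    simp only [PowerSeries.coeff_expand_mul]
    exact PowerSeries.WithPiTopology.continuous_coeff K m
  · have : (fun a : K⟦X⟧ => coeff n (expand d hd a)) = fun _ => 0 := by
      funext a
      exact coeff_expand_of_not_dvd d hd a hn
    rw [this]
    exact continuous_const

omit [IsTopologicalRing K] [T2Space K] in
theorem en_continuous_map_int :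
    Continuous (PowerSeries.map (Int.castRingHom K) : ℤ⟦X⟧ → K⟦X⟧) := by
  apply en_continuous_of_coeff
  intro n
  simp only [PowerSeries.coeff_map]
  exact (continuous_of_discreteTopology (f := fun k : ℤ => (Int.castRingHom K k))).comp
    (PowerSeries.WithPiTopology.continuous_coeff ℤ n)

omit [T2Space K] in
theorem en_continuous_nrm (r : ℕ) (ζ : K) : Continuous (enNrm r ζ : K⟦X⟧ → K⟦X⟧) := by
  show Continuous fun f : K⟦X⟧ => ∏ b ∈ Finset.range r, rescale (ζ ^ b) f
  exact continuous_finsetProd _ fun b _ => en_continuous_rescale (ζ ^ b)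

omit [IsTopologicalRing K] [T2Space K] in
/-- a family `1 + (terms of order > n)` is multipliable. -/
theorem en_multipliable (f : ℕ → K⟦X⟧) (h : ∀ n : ℕ, (n : ℕ∞) < (f n - 1).order) :
    Multipliable f := by
  have hf : f = fun n => 1 + (f n - 1) := by
    funext n
    ring
  rw [hf]
  apply PowerSeries.WithPiTopology.multipliable_one_add_of_tendsto_order_atTop_nhds_top
  refine ENat.tendsto_nhds_top_iff_natCast_lt.mpr fun n => Filter.eventually_atTop.mpr ⟨n, ?_⟩
  intro m hm
  exact lt_of_le_of_lt (by exact_mod_cast hm) (h m)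

omit [TopologicalSpace K] [IsTopologicalRing K] [T2Space K] in
theorem en_order_one_sub_X_pow_sub_one (m : ℕ) :
    (((1 : K⟦X⟧) - X ^ m) - 1).order = (m : ℕ∞) := by
  rw [sub_sub_cancel_left, order_neg, order_X_pow]

variable (K) in
/-- the Euler product over `K`. -/
def enEta : K⟦X⟧ := ∏' n : ℕ, (1 - X ^ (n + 1))

/-- the factors prime to `r`. -/
def enU (K : Type*) [Field K] (r : ℕ) (n : ℕ) : K⟦X⟧ :=
  if r ∣ n + 1 then 1 else 1 - X ^ (n + 1)

/-- the factors divisible by `r`. -/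
def enV (K : Type*) [Field K] (r : ℕ) (n : ℕ) : K⟦X⟧ :=
  if r ∣ n + 1 then 1 - X ^ (n + 1) else 1

omit [TopologicalSpace K] [IsTopologicalRing K] [T2Space K] in
theorem enU_mul_enV (r n : ℕ) : enU K r n * enV K r n = 1 - X ^ (n + 1) := by
  unfold enU enV
  split_ifs <;> simp

omit [IsTopologicalRing K] [T2Space K] in
theorem en_multipliable_U (r : ℕ) : Multipliable (enU K r) := by
  apply en_multipliable
  intro n
  unfold enU
  split_ifs
  · simp
  · rw [en_order_one_sub_X_pow_sub_one]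
    exact_mod_cast Nat.lt_succ_self n

omit [IsTopologicalRing K] [T2Space K] in
theorem en_multipliable_V (r : ℕ) : Multipliable (enV K r) := by
  apply en_multipliable
  intro n
  unfold enV
  split_ifs
  · rw [en_order_one_sub_X_pow_sub_one]
    exact_mod_cast Nat.lt_succ_self n
  · simp

/-- the part of the Euler product prime to `r`. -/
def enB (K : Type*) [Field K] [TopologicalSpace K] (r : ℕ) : K⟦X⟧ := ∏' n : ℕ, enU K r n

theorem en_expand_eta (r : ℕ) (hr : r ≠ 0) :
    expand r hr (enEta K) = ∏' k : ℕ, (1 - X ^ (r * (k + 1))) := by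
  unfold enEta
  rw [(PowerSeries.WithPiTopology.multipliable_one_sub_X_pow K).map_tprod (expand r hr)
    (en_continuous_expand r hr)]
  exact tprod_congr fun k => en_expand_one_sub_X_pow r hr (k + 1)

theorem en_tprod_V (r : ℕ) (hr : r ≠ 0) : ∏' n : ℕ, enV K r n = expand r hr (enEta K) := by
  rw [en_expand_eta]
  have hg : Function.Injective fun k : ℕ => r * (k + 1) - 1 := by
    intro a b hab
    have h1 : 1 ≤ r * (a + 1) := Nat.mul_pos (Nat.pos_of_ne_zero hr) (Nat.succ_pos a)
    have h2 : 1 ≤ r * (b + 1) := Nat.mul_pos (Nat.pos_of_ne_zero hr) (Nat.succ_pos b)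
    have h3 : r * (a + 1) = r * (b + 1) := by
      simp only at hab
      omega
    have h4 := Nat.eq_of_mul_eq_mul_left (Nat.pos_of_ne_zero hr) h3
    omega
  have hsupp : Function.mulSupport (enV K r) ⊆ Set.range fun k : ℕ => r * (k + 1) - 1 := by
    intro n hn
    rw [Function.mem_mulSupport] at hn
    unfold enV at hn
    split_ifs at hn with h
    · obtain ⟨m, hm⟩ := h
      have hm0 : m ≠ 0 := by
        rintro rfl
        omega
      refine ⟨m - 1, ?_⟩
      show r * (m - 1 + 1) - 1 = n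
      rw [Nat.sub_add_cancel (Nat.pos_of_ne_zero hm0), ← hm]
      omega
    · exact absurd rfl hn
  rw [← hg.tprod_eq hsupp]
  refine tprod_congr fun k => ?_
  have h1 : 1 ≤ r * (k + 1) := Nat.mul_pos (Nat.pos_of_ne_zero hr) (Nat.succ_pos k)
  unfold enV
  rw [Nat.sub_add_cancel h1, if_pos (Nat.dvd_mul_right r (k + 1))]

theorem en_eta_eq (r : ℕ) (hr : r ≠ 0) : enEta K = enB K r * expand r hr (enEta K) := by
  rw [← en_tprod_V r hr, enB, ← (en_multipliable_U r).tprod_mul (en_multipliable_V r)]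
  unfold enEta
  exact tprod_congr fun n => (enU_mul_enV r n).symm

theorem enNrm_enB {r : ℕ} (hr : r.Prime) {ζ : K} (hζ : IsPrimitiveRoot ζ r) :
    enNrm r ζ (enB K r) = expand r hr.ne_zero (enB K r) := by
  unfold enB
  rw [(en_multipliable_U r).map_tprod (enNrm r ζ) (en_continuous_nrm r ζ),
    (en_multipliable_U r).map_tprod (expand r hr.ne_zero) (en_continuous_expand r hr.ne_zero)]
  refine tprod_congr fun n => ?_
  unfold enU
  split_ifs with h
  · rw [map_one, map_one]
  · rw [enNrm_one_sub_X_pow_of_not_dvd hr hζ h, en_expand_one_sub_X_pow]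

/-- **the norm of the Euler product**:
`∏_b η(ζ^b X) · η(X^{r²}) = η(X^r)^{r+1}`. -/
theorem enNrm_eta {r : ℕ} (hr : r.Prime) {ζ : K} (hζ : IsPrimitiveRoot ζ r) :
    enNrm r ζ (enEta K) * expand (r * r) (mul_ne_zero hr.ne_zero hr.ne_zero) (enEta K) =
      (expand r hr.ne_zero (enEta K)) ^ (r + 1) := by
  have h1 := en_eta_eq (K := K) r hr.ne_zero
  have h2 : enNrm r ζ (enEta K) =
      expand r hr.ne_zero (enB K r) * (expand r hr.ne_zero (enEta K)) ^ r := by
    conv_lhs => rw [h1]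
    rw [map_mul, enNrm_enB hr hζ, enNrm_expand hr.ne_zero hζ.pow_eq_one]
  have h3 : expand r hr.ne_zero (enEta K) =
      expand r hr.ne_zero (enB K r) *
        expand (r * r) (mul_ne_zero hr.ne_zero hr.ne_zero) (enEta K) := by
    conv_lhs => rw [h1]
    rw [map_mul, expand_mul]
  rw [h2, pow_succ]
  calc expand r hr.ne_zero (enB K r) * (expand r hr.ne_zero (enEta K)) ^ r *
        expand (r * r) (mul_ne_zero hr.ne_zero hr.ne_zero) (enEta K)
      = (expand r hr.ne_zero (enB K r) *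
          expand (r * r) (mul_ne_zero hr.ne_zero hr.ne_zero) (enEta K)) *
          (expand r hr.ne_zero (enEta K)) ^ r := by ring
    _ = expand r hr.ne_zero (enEta K) * (expand r hr.ne_zero (enEta K)) ^ r := by rw [← h3]
    _ = (expand r hr.ne_zero (enEta K)) ^ r * expand r hr.ne_zero (enEta K) := mul_comm _ _

/-- the reduction of the integral Euler product. -/
theorem en_map_etaProd :
    PowerSeries.map (Int.castRingHom K) (∏' n : ℕ, ((1 : ℤ⟦X⟧) - X ^ (n + 1))) = enEta K := by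
  unfold enEta
  rw [(PowerSeries.WithPiTopology.multipliable_one_sub_X_pow ℤ).map_tprod
    (PowerSeries.map (Int.castRingHom K)) en_continuous_map_int]
  refine tprod_congr fun n => ?_
  simp

end Top

/-! ### Laurent series -/

section Laurent

open ModularCurve Fermat.Agent.Kronecker Fermat.Agent.S28 Fermat.Agent.BadRed

variable {K : Type*} [Field K]

/-- the reduction of `∏ (1 - Xⁿ)^24`. -/
def enE (K : Type*) [Field K] : K⟦X⟧ := PowerSeries.map (Int.castRingHom K) dedekindEtaUnit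

theorem enE_eq [TopologicalSpace K] [IsTopologicalRing K] [T2Space K] :
    enE K = enEta K ^ 24 := by
  unfold enE dedekindEtaUnit
  rw [map_pow]
  congr 1
  exact en_map_etaProd

/-- the norm identity for `E = η^24`, no topology in the statement. -/
theorem enNrm_enE {r : ℕ} (hr : r.Prime) {ζ : K} (hζ : IsPrimitiveRoot ζ r) :
    enNrm r ζ (enE K) * expand (r * r) (mul_ne_zero hr.ne_zero hr.ne_zero) (enE K) =
      (expand r hr.ne_zero (enE K)) ^ (r + 1) := by
  letI : TopologicalSpace K := ⊥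
  haveI : DiscreteTopology K := ⟨rfl⟩
  haveI : IsTopologicalRing K := {}
  rw [enE_eq, map_pow, map_pow, map_pow, ← mul_pow, enNrm_eta hr hζ, ← pow_mul, ← pow_mul,
    mul_comm]

theorem en_scaleL_ofPowerSeries (z : Kˣ) (f : K⟦X⟧) :
    scaleL z (HahnSeries.ofPowerSeries ℤ K f) =
      HahnSeries.ofPowerSeries ℤ K (rescale (z : K) f) := by
  ext n
  rw [scaleL_coeff]
  rcases le_or_gt 0 n with hn | hn
  · lift n to ℕ using hn
    rw [HahnSeries.ofPowerSeries_apply_coeff, HahnSeries.ofPowerSeries_apply_coeff,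
      coeff_rescale, zpow_natCast, Units.val_pow_eq_pow_val]
  · rw [ofPowerSeries_coeff_of_neg _ hn, ofPowerSeries_coeff_of_neg _ hn, mul_zero]

theorem en_scaleL_single (z : Kˣ) (n : ℤ) (a : K) :
    scaleL z (HahnSeries.single n a) = HahnSeries.single n (((z ^ n : Kˣ) : K) * a) := by
  ext m
  rw [scaleL_coeff]
  by_cases h : m = n
  · subst h
    simp
  · rw [HahnSeries.coeff_single_of_ne h, HahnSeries.coeff_single_of_ne h, mul_zero]

/-- the variable `q`. -/
def enT (K : Type*) [Field K] : LaurentSeries K := HahnSeries.single (1 : ℤ) (1 : K)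

theorem en_DeltaF_eq : wp10_DeltaF K = enT K * HahnSeries.ofPowerSeries ℤ K (enE K) := rfl

theorem en_scaleL_T (z : Kˣ) : scaleL z (enT K) = HahnSeries.C (z : K) * enT K := by
  unfold enT
  rw [en_scaleL_single, HahnSeries.C_apply, HahnSeries.single_mul_single, zero_add, zpow_one]

theorem en_qExpand_T (d : ℕ) [NeZero d] : qExpand K d (enT K) = enT K ^ d := by
  unfold enT
  rw [qExpand_single, mul_one, HahnSeries.single_pow, one_pow, nsmul_eq_mul, mul_one]

theorem en_qExpand_C (d : ℕ) [NeZero d] (a : K) :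
    qExpand K d (HahnSeries.C a) = HahnSeries.C a := by
  rw [HahnSeries.C_apply, qExpand_single, mul_zero]

theorem en_scaleL_C (z : Kˣ) (a : K) : scaleL z (HahnSeries.C a) = HahnSeries.C a := by
  rw [HahnSeries.C_apply, en_scaleL_single, zpow_zero, Units.val_one, one_mul]

theorem en_qExpand_Delta (d : ℕ) [NeZero d] :
    qExpand K d (wp10_DeltaF K) =
      enT K ^ d * HahnSeries.ofPowerSeries ℤ K (expand d (NeZero.ne d) (enE K)) := by
  rw [en_DeltaF_eq, map_mul, en_qExpand_T, qExpand_ofPowerSeries']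

theorem en_scaleL_Delta (z : Kˣ) :
    scaleL z (wp10_DeltaF K) =
      HahnSeries.C (z : K) * enT K * HahnSeries.ofPowerSeries ℤ K (rescale (z : K) (enE K)) := by
  rw [en_DeltaF_eq, map_mul, en_scaleL_T, en_scaleL_ofPowerSeries]

/-- the multiplicative map `y ↦ y(q^{r²}) ∏_{b<r} y(ζ^b q)`. -/
def enPhi (r : ℕ) [NeZero r] (ζ : Kˣ) : LaurentSeries K →* LaurentSeries K where
  toFun y := qExpand K (r * r) y * ∏ b ∈ Finset.range r, scaleL (ζ ^ b) y
  map_one' := by simp
  map_mul' x y := by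
    simp only [map_mul, Finset.prod_mul_distrib]
    ring

theorem enPhi_apply (r : ℕ) [NeZero r] (ζ : Kˣ) (y : LaurentSeries K) :
    enPhi r ζ y = qExpand K (r * r) y * ∏ b ∈ Finset.range r, scaleL (ζ ^ b) y := rfl

/-- the constant `∏_{b<r} ζ^b`. -/
def enEps (r : ℕ) (ζ : Kˣ) : Kˣ := ∏ b ∈ Finset.range r, ζ ^ b

theorem enPhi_Delta {r : ℕ} [NeZero r] (hr : r.Prime) (ζ : Kˣ) (hζ : IsPrimitiveRoot ζ r) :
    enPhi r ζ (wp10_DeltaF K) =
      HahnSeries.C ((enEps r ζ : Kˣ) : K) * (qExpand K r (wp10_DeltaF K)) ^ (r + 1) := by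
  have hζ' : IsPrimitiveRoot (ζ : K) r := IsPrimitiveRoot.coe_units_iff.mpr hζ
  have hN := enNrm_enE hr hζ'
  rw [enPhi_apply, en_qExpand_Delta, en_qExpand_Delta]
  have h1 : ∏ b ∈ Finset.range r, scaleL (ζ ^ b) (wp10_DeltaF K) =
      HahnSeries.C ((enEps r ζ : Kˣ) : K) * enT K ^ r *
        HahnSeries.ofPowerSeries ℤ K (enNrm r (ζ : K) (enE K)) := by
    simp only [en_scaleL_Delta]
    rw [Finset.prod_mul_distrib, Finset.prod_mul_distrib, Finset.prod_const, Finset.card_range,
      ← map_prod, ← map_prod, enNrm_apply, enEps]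
    simp only [Units.coe_prod, Units.val_pow_eq_pow_val]
  rw [h1, mul_pow, ← map_pow, ← hN, map_mul]
  ring

theorem enEps_ne_zero (r : ℕ) (ζ : Kˣ) : ((enEps r ζ : Kˣ) : K) ≠ 0 := Units.ne_zero _

theorem enPhi_qExpand (r : ℕ) [NeZero r] (p : ℕ) [NeZero p] (ζ : Kˣ) (y : LaurentSeries K) :
    enPhi r ζ (qExpand K p y) = qExpand K p (enPhi r (ζ ^ p) y) := by
  rw [enPhi_apply, enPhi_apply, map_mul, map_prod, qExpand_qExpand, qExpand_qExpand]
  congr 1
  · exact qExpand_congr (mul_comm _ _) y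
  · refine Finset.prod_congr rfl fun b _ => ?_
    rw [scaleL_qExpand, ← pow_mul, ← pow_mul, mul_comm b p]

/-- **the norm of `u = Δ(q)/Δ(q^p)`**: `u(q^{r²}) ∏_b u(ζ^b q) = c u(q^r)^{r+1}`. -/
theorem enPhi_uSer {r : ℕ} [NeZero r] (hr : r.Prime) (p : ℕ) [NeZero p] (hpr : Nat.Coprime p r)
    (ζ : Kˣ) (hζ : IsPrimitiveRoot ζ r) :
    ∃ c : K, c ≠ 0 ∧
      qExpand K (r * r) (uSer K p) * ∏ b ∈ Finset.range r, scaleL (ζ ^ b) (uSer K p) =
        HahnSeries.C c * (qExpand K r (uSer K p)) ^ (r + 1) := by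
  have hζp : IsPrimitiveRoot (ζ ^ p) r := hζ.pow_of_coprime p hpr
  set Δ := wp10_DeltaF K with hΔ
  set W := qExpand K r (qExpand K p Δ) with hW
  have hW0 : W ≠ 0 := by
    rw [hW, ne_eq, map_eq_zero_iff _ (qExpand_injective (R := K) (N := r))]
    exact qExpand_DeltaF_ne_zero K p
  have hu : uSer K p * qExpand K p Δ = Δ := uSer_mul_qExpand K p
  have h1 : enPhi r ζ (uSer K p) * enPhi r ζ (qExpand K p Δ) = enPhi r ζ Δ := by
    rw [← map_mul, hu]
  have h2 : enPhi r ζ (qExpand K p Δ) =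
      HahnSeries.C ((enEps r (ζ ^ p) : Kˣ) : K) * W ^ (r + 1) := by
    rw [enPhi_qExpand, enPhi_Delta hr (ζ ^ p) hζp, map_mul, en_qExpand_C, map_pow,
      qExpand_qExpand, hW, qExpand_qExpand]
    congr 2
    exact qExpand_congr (mul_comm _ _) Δ
  have h3 : qExpand K r Δ = qExpand K r (uSer K p) * W := by
    rw [hW, ← map_mul, hu]
  rw [h2, enPhi_Delta hr ζ hζ, h3, mul_pow] at h1
  refine ⟨((enEps r ζ : Kˣ) : K) * (((enEps r (ζ ^ p) : Kˣ) : K))⁻¹,
    mul_ne_zero (enEps_ne_zero r ζ) (inv_ne_zero (enEps_ne_zero r (ζ ^ p))), ?_⟩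
  have hC : (HahnSeries.C ((enEps r (ζ ^ p) : Kˣ) : K) : LaurentSeries K) ≠ 0 := by
    rw [ne_eq, map_eq_zero_iff _ HahnSeries.C_injective]
    exact enEps_ne_zero r (ζ ^ p)
  have hWp : W ^ (r + 1) ≠ 0 := pow_ne_zero _ hW0
  rw [← enPhi_apply]
  apply mul_right_cancel₀ (mul_ne_zero hC hWp)
  rw [h1, map_mul, map_inv₀]
  field_simp

end Laurent

end Fermat.Agent.ES15
end
end MergeWrap_E_S15_EtaNorm
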