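import Mathlib
import Fermat.Prelude.Def_ModularCurve_HeckeOperatorTotal
import Fermat.Agent.MUL.E.S15.HeckeRedCore
import Fermat.Agent.MUL.E.S15.RedInputs
import Fermat.Agent.MUL.Lib.RedTr.FundIdK
import Fermat.Agent.MUL.Orig.Lib.GaussInt.FrobFormal
import Fermat.Agent.MUL.F3.Transfer.Wrap
import Fermat.Agent.MUL.S27.Zeta.Fin

section MergeWrap_E_S15_HeckeRedMod -- from E/S15/HeckeRedMod.lean

set_option autoImplicit false
set_option linter.style.haveILetI false
set_option linter.unusedSectionVars false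
set_option synthInstance.maxHeartbeats 400000

noncomputable section

open AlgebraicCurve ModularCurve HahnSeries Fermat.Agent.RR Fermat.Agent.Deuring Fermat.Agent.FF
  Fermat.Agent.RedTr Fermat.Agent.GaussInt Fermat.Agent.GaussIntFP

namespace Fermat.Agent.ES15

local notation "Qb" => AlgebraicClosure ℚ

/-! ### finiteness -/

section Finite

variable {K E F : Type*} [Field K] [Field E] [Field F] [Algebra K E] [Algebra K F]

/-- a morphism of Riemann-Roch fields is finite (any characteristic). -/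
theorem heckeRed_finiteAlong (hE : IsRRField K E) (hF : IsRRField K F) (φ : E →ₐ[K] F) :
    FiniteAlong K φ := by
  letI := algebraAlong φ
  obtain ⟨x, hx, -, -⟩ := hE.exists_x
  have hy : Transcendental K (φ x) := by
    intro h
    exact hx ((isAlgebraic_algHom_iff φ φ.injective).mp h)
  haveI := fundIdK_finiteDimensional hF hy
  obtain ⟨S, hS⟩ := Module.Finite.fg_top (R := IntermediateField.adjoin K {φ x}) (M := F)
  have hle : IntermediateField.adjoin K {φ x} ≤ φ.fieldRange := by
    rw [IntermediateField.adjoin_le_iff, Set.singleton_subset_iff]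
    exact ⟨x, rfl⟩
  show Module.Finite E F
  refine ⟨⟨S, ?_⟩⟩
  rw [eq_top_iff]
  rintro z -
  have hz : z ∈ Submodule.span (IntermediateField.adjoin K {φ x}) (S : Set F) := by
    rw [hS]
    trivial
  induction hz using Submodule.span_induction with
  | mem w hw => exact Submodule.subset_span hw
  | zero => exact zero_mem _
  | add a b _ _ ha hb => exact add_mem ha hb
  | smul c w _ hw =>
    obtain ⟨y, hy⟩ := hle c.2
    have h1 : c • w = y • w := by
      rw [Algebra.smul_def, Algebra.smul_def]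
      congr 1
      exact hy.symm
    rw [h1]
    exact Submodule.smul_mem _ _ hw

end Finite

/-! ### Gauss presentations and `q ↦ q^n` -/

section Pres

variable {K : Type*} [Field K] (A : ValuationSubring K)
  {F F' : IntermediateField K (LaurentSeries K)} (n : ℕ) [NeZero n]

theorem heckeRed_isPres_qExpand (hFF' : ∀ x ∈ F, qExpand K n x ∈ F')
    {f : LaurentSeries K} {Y₁ Y₂ : LaurentSeries A} (hp : IsPres A F f Y₁ Y₂) :
    IsPres A F' (qExpand K n f) (qExpand A n Y₁) (qExpand A n Y₂) where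
  mem₁ := by
    rw [emb_qExpand]
    exact hFF' _ hp.mem₁
  mem₂ := by
    rw [emb_qExpand]
    exact hFF' _ hp.mem₂
  prim := by
    rw [red_qExpand]
    exact (map_ne_zero_iff _ (qExpand (IsLocalRing.ResidueField A) n).injective).mpr hp.prim
  eq := by
    rw [emb_qExpand, emb_qExpand, ← map_mul, hp.eq]

theorem heckeRed_qExpand_mem_gaussSub (hFF' : ∀ x ∈ F, qExpand K n x ∈ F')
    {f : LaurentSeries K} (hf : f ∈ gaussSub A F) : qExpand K n f ∈ gaussSub A F' := by
  obtain ⟨Y₁, Y₂, hp⟩ := hf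
  exact ⟨_, _, heckeRed_isPres_qExpand A n hFF' hp⟩

theorem heckeRed_gaussResFun_qExpand (hFF' : ∀ x ∈ F, qExpand K n x ∈ F')
    {f : LaurentSeries K} (hf : f ∈ gaussSub A F) :
    gaussResFun A F' (qExpand K n f) =
      qExpand (IsLocalRing.ResidueField A) n (gaussResFun A F f) := by
  obtain ⟨Y₁, Y₂, hp⟩ := hf
  rw [gaussResFun_eq hp, gaussResFun_eq (heckeRed_isPres_qExpand A n hFF' hp), red_qExpand,
    red_qExpand, map_div₀]

end Pres

/-! ### the second degeneracy map to a top level -/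

section Beta

variable (N r M : ℕ) [NeZero N] [NeZero r] [NeZero M] (h : N * r ∣ M)

/-- `q ↦ q^r` maps `F_N` into `F_M` if `N r ∣ M` (characteristic `0`). -/
def heckeRed_betaTop :
    modularFunctionFieldBar N →ₐ[Qb] modularFunctionFieldBar M :=
  (Fermat.Agent.F3T.inclBar h).comp (heckeBetaBar Qb N r)

@[simp]
theorem coe_heckeRed_betaTop (x : modularFunctionFieldBar N) :
    (heckeRed_betaTop N r M h x : LaurentSeries Qb) = qExpand Qb r (x : LaurentSeries Qb) := by
  show ((Fermat.Agent.F3T.inclBar h (heckeBetaBar Qb N r x) : modularFunctionFieldBar M) :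
    LaurentSeries Qb) = _
  rw [Fermat.Agent.F3T.coe_inclBar, coe_heckeBetaBar]

theorem heckeRed_qExpand_mem_bar (h : N * r ∣ M) (x : LaurentSeries Qb)
    (hx : x ∈ modularFunctionFieldBar N) : qExpand Qb r x ∈ modularFunctionFieldBar M := by
  have := (heckeRed_betaTop N r M h ⟨x, hx⟩).2
  rwa [coe_heckeRed_betaTop] at this

variable (k : Type*) [Field k]

/-- `q ↦ q^r` maps `F_{k,N}` into `F_{k,M}` if `N r ∣ M`. -/
def heckeRed_betaTopC :
    modularFunctionFieldFullC k N →ₐ[k] modularFunctionFieldFullC k M :=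
  ((qExpandAlgHomC k r).comp (modularFunctionFieldFullC k N).val).codRestrict
    (modularFunctionFieldFullC k M).toSubalgebra (fun x =>
      full_degeneracyC_le k h (full_degeneracyC_map_le k N r ⟨x, x.2, rfl⟩))

@[simp]
theorem coe_heckeRed_betaTopC (x : modularFunctionFieldFullC k N) :
    (heckeRed_betaTopC N r M h k x : LaurentSeries k) = qExpand k r (x : LaurentSeries k) :=
  rfl

end Beta

section BetaCompat

variable (A : ValuationSubring Qb) (ℓ N r M : ℕ) [NeZero N] [NeZero r] [NeZero M]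
  (hℓ : ℓ.Prime) (hA : A.LiesOverPrime ℓ) (hℓN : ¬ ℓ ∣ N) (hℓM : ¬ ℓ ∣ M) (h : N * r ∣ M)

/-- `q ↦ q^r` maps the Gauss ring of level `N` into the Gauss ring of level `M`. -/
theorem heckeRed_betaTop_mem (f : modularFunctionFieldBar N)
    (hf : f ∈ (modularValSetup A ℓ N hℓ hA hℓN).Ov) :
    heckeRed_betaTop N r M h f ∈ (modularValSetup A ℓ M hℓ hA hℓM).Ov := by
  rw [mem_modularValSetup_Ov_iff, coe_heckeRed_betaTop]
  exact heckeRed_qExpand_mem_gaussSub A r (heckeRed_qExpand_mem_bar N r M h)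
    ((mem_modularValSetup_Ov_iff A ℓ N hℓ hA hℓN f).mp hf)

/-- `q ↦ q^r` commutes with the reduction. -/
theorem heckeRed_betaTop_red (f : modularFunctionFieldBar N)
    (hf : f ∈ (modularValSetup A ℓ N hℓ hA hℓN).Ov) :
    (modularValSetup A ℓ M hℓ hA hℓM).red (heckeRed_betaTop N r M h f) =
      heckeRed_betaTopC N r M h (IsLocalRing.ResidueField A)
        ((modularValSetup A ℓ N hℓ hA hℓN).red f) := by
  have hf' := (mem_modularValSetup_Ov_iff A ℓ N hℓ hA hℓN f).mp hf
  have hbf : ((heckeRed_betaTop N r M h f : modularFunctionFieldBar M) : LaurentSeries Qb) ∈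
      gaussSub A (modularFunctionFieldBar M) := by
    rw [coe_heckeRed_betaTop]
    exact heckeRed_qExpand_mem_gaussSub A r (heckeRed_qExpand_mem_bar N r M h) hf'
  apply Subtype.ext
  rw [coe_modularValSetup_red A ℓ M hℓ hA hℓM hbf, coe_heckeRed_betaTopC,
    coe_modularValSetup_red A ℓ N hℓ hA hℓN hf', coe_heckeRed_betaTop]
  exact heckeRed_gaussResFun_qExpand A r (heckeRed_qExpand_mem_bar N r M h) hf'

end BetaCompat

/-! ### the push property of a place reduction of the Prelude -/

section Push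

variable (A : ValuationSubring Qb) (ℓ N : ℕ) [NeZero N]
  (hℓ : ℓ.Prime) (hA : A.LiesOverPrime ℓ) (hℓN : ¬ ℓ ∣ N)

/-- a place reduction in the sense of the Prelude has the push property for the units of the
modular Gauss valuation. -/
theorem heckeRed_isPush_of_isPlaceReduction
    {r₀ : Place Qb (modularFunctionFieldBar N) →
      Place (IsLocalRing.ResidueField A)
        (modularFunctionFieldFullC (IsLocalRing.ResidueField A) N)}
    (hr₀ : IsPlaceReductionModL A N r₀) :
    IsPush (modularValSetup A ℓ N hℓ hA hℓN) r₀ := by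
  intro u hu hu' hu0 Q
  set S := modularValSetup A ℓ N hℓ hA hℓN with hS
  have humem : (u : LaurentSeries Qb) ∈ gaussSub A (modularFunctionFieldBar N) := hu
  obtain ⟨Y₁, Y₂, hY⟩ := humem
  have hY₂0 : emb A Y₂ ≠ 0 := hY.emb_ne_zero
  have hures : S.red u ≠ 0 := S.red_ne_zero hu hu' hu0
  have hredu : ((S.red u : modularFunctionFieldFullC (IsLocalRing.ResidueField A) N) :
      LaurentSeries (IsLocalRing.ResidueField A)) = red A Y₁ / red A Y₂ := by
    rw [coe_modularValSetup_red A ℓ N hℓ hA hℓN (f := u) ⟨Y₁, Y₂, hY⟩, gaussResFun_eq hY]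
  have hY₁red : red A Y₁ ≠ 0 := by
    intro h0
    apply hures
    apply Subtype.ext
    rw [hredu, h0, zero_div]
    rfl
  have hY₁0 : emb A Y₁ ≠ 0 := by
    intro h0
    have : Y₁ = 0 := emb_injective A (by rw [h0, map_zero])
    exact hY₁red (by rw [this, map_zero])
  set f₁ : modularFunctionFieldBar N := ⟨emb A Y₁, hY.mem₁⟩ with hf₁
  set f₂ : modularFunctionFieldBar N := ⟨emb A Y₂, hY.mem₂⟩ with hf₂
  have hf₁0 : f₁ ≠ 0 := fun h => hY₁0 (congrArg Subtype.val h)
  have hf₂0 : f₂ ≠ 0 := fun h => hY₂0 (congrArg Subtype.val h)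
  have hrel : u * f₂ = f₁ := Subtype.ext hY.eq
  have hmemk : ∀ Y : LaurentSeries A, emb A Y ∈ modularFunctionFieldBar N →
      red A Y ∈ modularFunctionFieldFullC (IsLocalRing.ResidueField A) N := by
    intro Y hYm
    have := Fermat.Agent.GaussVal.gaussResFun_mem_fullC_of_isAlgClosed A ℓ N hℓ hA hℓN _
      (emb_mem_gaussSub hYm)
    rwa [gaussResFun_emb hYm] at this
  set g₁ : modularFunctionFieldFullC (IsLocalRing.ResidueField A) N :=
    ⟨red A Y₁, hmemk Y₁ hY.mem₁⟩ with hg₁
  set g₂ : modularFunctionFieldFullC (IsLocalRing.ResidueField A) N :=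
    ⟨red A Y₂, hmemk Y₂ hY.mem₂⟩ with hg₂
  have hg₁0 : g₁ ≠ 0 := fun h => hY₁red (congrArg Subtype.val h)
  have hg₂0 : g₂ ≠ 0 := fun h => hY.prim (congrArg Subtype.val h)
  have hrelk : S.red u * g₂ = g₁ := by
    apply Subtype.ext
    show ((S.red u : modularFunctionFieldFullC (IsLocalRing.ResidueField A) N) :
      LaurentSeries (IsLocalRing.ResidueField A)) * red A Y₂ = red A Y₁
    rw [hredu, div_mul_cancel₀ _ hY.prim]
  have h₁ := hr₀.2 Y₁ hY.mem₁ (hmemk Y₁ hY.mem₁) hY₁red (divOf S.hF f₁)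
    (fun P => divOf_apply _ _ _) Q
  have h₂ := hr₀.2 Y₂ hY.mem₂ (hmemk Y₂ hY.mem₂) hY.prim (divOf S.hF f₂)
    (fun P => divOf_apply _ _ _) Q
  have hD : divOf S.hF u = divOf S.hF f₁ - divOf S.hF f₂ := by
    rw [← hrel, divOf_mul S.hF hu0 hf₂0, add_sub_cancel_right]
  have hQ : Q.ord g₁ = Q.ord (S.red u) + Q.ord g₂ := by
    rw [← hrelk, Q.ord_mul hures hg₂0]
  rw [hD, Finsupp.mapDomain_sub, Finsupp.sub_apply, h₁, h₂]
  show Q.ord g₁ - Q.ord g₂ = _
  rw [hQ]
  ring

end Push

end Fermat.Agent.ES15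
end
end MergeWrap_E_S15_HeckeRedMod
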