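import Mathlib
import Fermat.Agent.MUL.S17.H.Setup.Cusp
import Fermat.Agent.MUL.Orig.S24.Residue
import Fermat.Agent.MUL.S24.EmbF
import Fermat.Agent.MUL.Orig.Lib.RR.Basic
import Fermat.Agent.MUL.Lib.RR.OfModularC
import Fermat.Agent.MUL.S36.Seed.OldMod

section MergeWrap_E_S15_CuspOrd -- from E/S15/CuspOrd.lean

/-!
# Cluster E' / S15-D (helper98): the order at the cusp `∞` is the order of the `q`-expansion

* `ord_laurentPlace` : for an intermediate field `E` of `L((X)) / L` containing a series of
  order `1`, the order at the place of the `X`-adic valuation is the order of the series;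
* `ord_cuspPlace N f : (cuspPlace N).ord f = (f : LaurentSeries ℚ̄).order` on the function field
  of `X₀(N)`;
* `ord_cuspPlace_jBar : (cuspPlace N).ord (jBar N) = -1`.
-/

set_option autoImplicit false
set_option linter.unusedSectionVars false
set_option linter.style.haveILetI false

noncomputable section

open AlgebraicCurve ModularCurve

namespace Fermat.Agent.ED

section LaurentOrd

variable {L : Type*} [Field L]

/-- no polar part iff the order is nonnegative. -/
lemma order_nonneg_iff_coeff {x : LaurentSeries L} (hx : x ≠ 0) :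
    0 ≤ x.order ↔ ∀ n : ℤ, n < 0 → x.coeff n = 0 := by
  constructor
  · intro h n hn
    exact HahnSeries.coeff_eq_zero_of_lt_order (lt_of_lt_of_le hn h)
  · intro h
    by_contra hlt
    exact hx (HahnSeries.coeff_order_eq_zero.mp (h _ (not_le.mp hlt)))

lemma order_mul_laurent {x y : LaurentSeries L} (hx : x ≠ 0) (hy : y ≠ 0) :
    (x * y).order = x.order + y.order :=
  HahnSeries.order_mul_of_ne_zero
    (mul_ne_zero (HahnSeries.leadingCoeff_ne_zero.mpr hx) (HahnSeries.leadingCoeff_ne_zero.mpr hy))

lemma order_inv_laurent {x : LaurentSeries L} (hx : x ≠ 0) : (x⁻¹).order = -x.order := by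
  have h1 : (x * x⁻¹).order = x.order + (x⁻¹).order := order_mul_laurent hx (inv_ne_zero hx)
  rw [mul_inv_cancel₀ hx, HahnSeries.order_one] at h1
  omega

lemma order_pow_laurent {x : LaurentSeries L} (hx : x ≠ 0) (n : ℕ) :
    (x ^ n).order = n * x.order := by
  induction n with
  | zero => simp [HahnSeries.order_one]
  | succ n ih =>
    rw [pow_succ, order_mul_laurent (pow_ne_zero n hx) hx, ih]
    push_cast
    ring

lemma order_zpow_laurent {x : LaurentSeries L} (hx : x ≠ 0) (n : ℤ) :
    (x ^ n).order = n * x.order := by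
  obtain ⟨m, rfl | rfl⟩ := n.eq_nat_or_neg
  · rw [zpow_natCast, order_pow_laurent hx]
  · rw [zpow_neg, zpow_natCast, order_inv_laurent (pow_ne_zero m hx), order_pow_laurent hx]
    ring

variable (E : IntermediateField L (LaurentSeries L))
  (hE : ∃ f : E, ∃ n : ℤ, n < 0 ∧ (f : LaurentSeries L).coeff n ≠ 0)

open Fermat.Agent.S17.Setup

lemma coe_ne_zero_of_ne {f : E} (hf : f ≠ 0) : (f : LaurentSeries L) ≠ 0 :=
  fun h => hf (Subtype.ext h)

/-- nonnegative order at the place iff nonnegative order of the series. -/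
lemma ord_laurentPlace_nonneg_iff {f : E} (hf : f ≠ 0) :
    0 ≤ (laurentPlace E hE).ord f ↔ 0 ≤ (f : LaurentSeries L).order := by
  rw [order_nonneg_iff_coeff (coe_ne_zero_of_ne E hf), ← mem_laurentPlace_iff E hE]
  exact ⟨fun h => Fermat.Agent.S24Res.mem_of_ord_nonneg _ h,
    fun h => Fermat.Agent.S24Res.ord_nonneg_of_mem _ h⟩

lemma ord_laurentPlace_nonpos_iff {f : E} (hf : f ≠ 0) :
    (laurentPlace E hE).ord f ≤ 0 ↔ (f : LaurentSeries L).order ≤ 0 := by
  have h := ord_laurentPlace_nonneg_iff E hE (inv_ne_zero hf)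
  rw [Place.ord_inv] at h
  have h2 : ((f⁻¹ : E) : LaurentSeries L) = (f : LaurentSeries L)⁻¹ := rfl
  rw [h2, order_inv_laurent (coe_ne_zero_of_ne E hf)] at h
  constructor
  · intro h1
    have := h.mp (by omega)
    omega
  · intro h1
    have := h.mpr (by omega)
    omega

lemma ord_laurentPlace_eq_zero_iff {f : E} (hf : f ≠ 0) :
    (laurentPlace E hE).ord f = 0 ↔ (f : LaurentSeries L).order = 0 := by
  have h1 := ord_laurentPlace_nonneg_iff E hE hf
  have h2 := ord_laurentPlace_nonpos_iff E hE hf
  constructor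
  · intro h
    have a := h1.mp (by omega)
    have b := h2.mp (by omega)
    omega
  · intro h
    have a := h1.mpr (by omega)
    have b := h2.mpr (by omega)
    omega

/-- **the order at the place of the `X`-adic valuation is the order of the series**, if the field
contains a series of order `1`. -/
theorem ord_laurentPlace {t : E} (ht : (t : LaurentSeries L).order = 1) {f : E} (hf : f ≠ 0) :
    (laurentPlace E hE).ord f = (f : LaurentSeries L).order := by
  have ht0 : t ≠ 0 := by
    rintro rfl
    simp at ht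
  obtain ⟨π, hπ⟩ := Fermat.Agent.RR.exists_uniformizer (laurentPlace E hE)
  have hπ0 : π ≠ 0 := by
    rintro rfl
    simp at hπ
  have coe_zpow : ∀ (x : E) (n : ℤ), ((x ^ n : E) : LaurentSeries L) = (x : LaurentSeries L) ^ n :=
    fun x n => rfl
  -- `ord t = 1`
  have hta : (laurentPlace E hE).ord t = 1 := by
    set a := (laurentPlace E hE).ord t with ha
    set b := (π : LaurentSeries L).order with hb
    have hx0 : t * (π ^ a)⁻¹ ≠ 0 := mul_ne_zero ht0 (inv_ne_zero (zpow_ne_zero a hπ0))
    have h1 : (laurentPlace E hE).ord (t * (π ^ a)⁻¹) = 0 := by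
      rw [Place.ord_mul _ ht0 (inv_ne_zero (zpow_ne_zero a hπ0)), Place.ord_inv, Place.ord_zpow,
        hπ]
      ring
    have h2 := (ord_laurentPlace_eq_zero_iff E hE hx0).mp h1
    have h3 : ((t * (π ^ a)⁻¹ : E) : LaurentSeries L) =
        (t : LaurentSeries L) * ((π : LaurentSeries L) ^ a)⁻¹ := rfl
    rw [h3, order_mul_laurent (coe_ne_zero_of_ne E ht0)
      (inv_ne_zero (zpow_ne_zero a (coe_ne_zero_of_ne E hπ0))),
      order_inv_laurent (zpow_ne_zero a (coe_ne_zero_of_ne E hπ0)),
      order_zpow_laurent (coe_ne_zero_of_ne E hπ0), ht] at h2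
    have hab : a * b = 1 := by linarith
    have ha0 : 0 ≤ a := (ord_laurentPlace_nonneg_iff E hE ht0).mpr (by omega)
    rcases Int.eq_one_or_neg_one_of_mul_eq_one hab with h | h
    · exact h
    · omega
  -- general `f`
  set n := (f : LaurentSeries L).order with hn
  have hy0 : f * (t ^ n)⁻¹ ≠ 0 := mul_ne_zero hf (inv_ne_zero (zpow_ne_zero n ht0))
  have h3 : ((f * (t ^ n)⁻¹ : E) : LaurentSeries L) =
      (f : LaurentSeries L) * ((t : LaurentSeries L) ^ n)⁻¹ := rfl
  have h1 : ((f * (t ^ n)⁻¹ : E) : LaurentSeries L).order = 0 := by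
    rw [h3, order_mul_laurent (coe_ne_zero_of_ne E hf)
      (inv_ne_zero (zpow_ne_zero n (coe_ne_zero_of_ne E ht0))),
      order_inv_laurent (zpow_ne_zero n (coe_ne_zero_of_ne E ht0)),
      order_zpow_laurent (coe_ne_zero_of_ne E ht0), ht]
    ring
  have h2 := (ord_laurentPlace_eq_zero_iff E hE hy0).mpr h1
  rw [Place.ord_mul _ hf (inv_ne_zero (zpow_ne_zero n ht0)), Place.ord_inv, Place.ord_zpow,
    hta] at h2
  linarith

end LaurentOrd

section Modular

local notation "Qb" => AlgebraicClosure ℚ

open Fermat.Agent.S17.Setup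

variable (N : ℕ) [NeZero N]

lemma order_coe_jBar : ((Fermat.Agent.S24.jBar N : modularFunctionFieldBar N) :
    LaurentSeries Qb).order = -1 := by
  rw [Fermat.Agent.S24.coe_jBar_eq_jqModC]
  exact Fermat.Agent.RRMod.order_jqModC Qb

lemma jBar_ne_zero' : Fermat.Agent.S24.jBar N ≠ 0 := by
  intro h
  have := order_coe_jBar N
  rw [h] at this
  simp at this

/-- **the order at the cusp `∞` is the order of the `q`-expansion.** -/
theorem ord_cuspPlace {f : modularFunctionFieldBar N} (hf : f ≠ 0) :
    (cuspPlace N).ord f = (f : LaurentSeries Qb).order := by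
  have ht : (((Fermat.Agent.S24.jBar N)⁻¹ : modularFunctionFieldBar N) :
      LaurentSeries Qb).order = 1 := by
    have h2 : (((Fermat.Agent.S24.jBar N)⁻¹ : modularFunctionFieldBar N) : LaurentSeries Qb) =
        ((Fermat.Agent.S24.jBar N : modularFunctionFieldBar N) : LaurentSeries Qb)⁻¹ := rfl
    rw [h2, order_inv_laurent (coe_ne_zero_of_ne _ (jBar_ne_zero' N)), order_coe_jBar]
    norm_num
  exact ord_laurentPlace (modularFunctionFieldBar N) (exists_pole N) ht hf

theorem ord_cuspPlace_jBar : (cuspPlace N).ord (Fermat.Agent.S24.jBar N) = -1 := by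
  rw [ord_cuspPlace N (jBar_ne_zero' N), order_coe_jBar]

end Modular

end Fermat.Agent.ED
end
end MergeWrap_E_S15_CuspOrd
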