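import Mathlib
import Fermat.Prelude.Def_ModularCurve_ReductionModL
import Fermat.Statements.S18
import Fermat.Agent.MUL.Orig.Lib.RR.Basic
import Fermat.Agent.MUL.Orig.Lib.GaussInt.Basic
import Fermat.Agent.MUL.Orig.Lib.GaussInt.Interface
import Fermat.Agent.MUL.Lib.GaussInt.ModularInst
import Fermat.Agent.MUL.Lib.GaussInt.KeyAux
import Fermat.Agent.MUL.E.S15.Interfaces
import Fermat.Agent.MUL.Orig.Lib.Frobenius.Exists
import Fermat.Agent.MUL.Lib.BadRed.KroneckerCharpolyGen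

section MergeWrap_S18_WiringAbs -- from S18/WiringAbs.lean

set_option autoImplicit false

/-!
# S18 wiring: the abstract steps

Pure statements about two function fields `F / K`, `Fk / k` and a map of places, resp. about the
Gauss ring; they are instantiated in `S18/Wiring.lean`.
-/

noncomputable section

open AlgebraicCurve Fermat.Agent.RR

namespace Fermat.Agent.S18W

section Abstract

variable {K F k Fk : Type*} [Field K] [Field F] [Algebra K F] [Field k] [Field Fk] [Algebra k Fk]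

/-- a function without zeros and poles is a constant. -/
theorem exists_eq_algebraMap_of_ord_eq_zero (h : IsRRField K F) {v : F}
    (hv : ∀ Q : Place K F, Q.ord v = 0) : ∃ c : K, v = algebraMap K F c := by
  have hmem : v ∈ riemannRochSpace (0 : Divisor K F) := by
    rw [mem_riemannRochSpace_iff]
    intro Q
    right
    rw [hv Q]
    simp
  obtain ⟨c, hc⟩ := (mem_riemannRochSpace_zero_iff h v).mp hmem
  exact ⟨c, hc.symm⟩

/-- push-forward of the divisor of a quotient. -/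
theorem push_div (hF : IsRRField K F) (r₀ : Place K F → Place k Fk) {f₁ y₁ y₂ : F}
    {yb₁ yb₂ : Fk} (hf₁ : f₁ ≠ 0) (hy₂ : y₂ ≠ 0) (heq : f₁ * y₂ = y₁)
    (hyb₁ : yb₁ ≠ 0) (hyb₂ : yb₂ ≠ 0)
    (h₁ : ∀ Q : Place k Fk, Finsupp.mapDomain r₀ (divOf hF y₁) Q = Q.ord yb₁)
    (h₂ : ∀ Q : Place k Fk, Finsupp.mapDomain r₀ (divOf hF y₂) Q = Q.ord yb₂)
    (Q : Place k Fk) :
    Finsupp.mapDomain r₀ (divOf hF f₁) Q = Q.ord (yb₁ * yb₂⁻¹) := by
  have hdiv : divOf hF y₁ = divOf hF f₁ + divOf hF y₂ := by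
    rw [← heq, divOf_mul hF hf₁ hy₂]
  have h3 := h₁ Q
  rw [hdiv, Finsupp.mapDomain_add, Finsupp.add_apply, h₂ Q] at h3
  rw [Q.ord_mul hyb₁ (inv_ne_zero hyb₂), Q.ord_inv]
  omega

/-- comparison of the two reductions of `m D = div f₁`. -/
theorem exists_const_of_push (hFk : IsRRField k Fk) (r₀ : Place K F → Place k Fk)
    (hF : IsRRField K F) (D : Divisor K F) (m : ℕ) {f₁ : F}
    (hdiv : ∀ P : Place K F, (m • D) P = P.ord f₁) {fb ub : Fk} (hfb : fb ≠ 0) (hub : ub ≠ 0)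
    (hpush : ∀ Q : Place k Fk, Finsupp.mapDomain r₀ (divOf hF f₁) Q = Q.ord fb)
    (hubD : ∀ Q : Place k Fk, Finsupp.mapDomain r₀ D Q = Q.ord ub) :
    ∃ cb : k, cb ≠ 0 ∧ fb = algebraMap k Fk cb * ub ^ m := by
  have hD : divOf hF f₁ = m • D := by
    ext P
    rw [divOf_apply, hdiv P]
  have hordQ : ∀ Q : Place k Fk, Q.ord fb = (m : ℤ) * Q.ord ub := by
    intro Q
    rw [← hpush Q, ← hubD Q, hD]
    have := map_nsmul (Finsupp.mapDomain.addMonoidHom r₀) m D
    rw [Finsupp.mapDomain.addMonoidHom_apply, Finsupp.mapDomain.addMonoidHom_apply] at this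
    rw [this, Finsupp.smul_apply, nsmul_eq_mul]
  have hpow : ub ^ m ≠ 0 := pow_ne_zero m hub
  obtain ⟨cb, hcb⟩ := exists_eq_algebraMap_of_ord_eq_zero hFk (v := fb * (ub ^ m)⁻¹) (by
    intro Q
    rw [Q.ord_mul hfb (inv_ne_zero hpow), Q.ord_inv, ← zpow_natCast, Q.ord_zpow, hordQ Q]
    ring)
  refine ⟨cb, ?_, ?_⟩
  · rintro rfl
    rw [map_zero] at hcb
    exact mul_ne_zero hfb (inv_ne_zero hpow) hcb
  · rw [← hcb, inv_mul_cancel_right₀ hpow]

/-- the final divisor computation. -/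
theorem ord_mul_of_pow_eq (D : Divisor K F) {m : ℕ} (hm0 : m ≠ 0) {f₁ g uF h : F} {a : K}
    (ha : a ≠ 0) (hu : uF ≠ 0) (hg : g ≠ 0)
    (hdiv : ∀ P : Place K F, (m • D) P = P.ord f₁) (hfg : f₁ = algebraMap K F a * uF ^ m * g)
    (hpow : h ^ m = g) (P : Place K F) : D P = P.ord (h * uF) := by
  have hh : h ≠ 0 := by
    rintro rfl
    rw [zero_pow hm0] at hpow
    exact hg hpow.symm
  have haF : algebraMap K F a ≠ 0 := by simpa using ha
  have h1 := hdiv P
  rw [Finsupp.smul_apply, nsmul_eq_mul, hfg, ← hpow,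
    P.ord_mul (mul_ne_zero haF (pow_ne_zero m hu)) (pow_ne_zero m hh),
    P.ord_mul haF (pow_ne_zero m hu), Fermat.Agent.S24Res.ord_algebraMap, zero_add,
    ← zpow_natCast, P.ord_zpow, ← zpow_natCast, P.ord_zpow] at h1
  rw [P.ord_mul hh hu]
  have hm : (m : ℤ) ≠ 0 := by exact_mod_cast hm0
  have h2 : (m : ℤ) * D P = (m : ℤ) * (P.ord h + P.ord uF) := by rw [h1]; ring
  exact mul_left_cancel₀ hm h2

/-- divisibility of the divisor of `g`. -/
theorem dvd_ord_of_eq (D : Divisor K F) {m : ℕ} {f₁ g uF : F} {a : K}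
    (ha : a ≠ 0) (hu : uF ≠ 0) (hg : g ≠ 0)
    (hdiv : ∀ P : Place K F, (m • D) P = P.ord f₁) (hfg : f₁ = algebraMap K F a * uF ^ m * g)
    (P : Place K F) : (m : ℤ) ∣ P.ord g := by
  have haF : algebraMap K F a ≠ 0 := by simpa using ha
  have h1 := hdiv P
  rw [Finsupp.smul_apply, nsmul_eq_mul, hfg,
    P.ord_mul (mul_ne_zero haF (pow_ne_zero m hu)) hg,
    P.ord_mul haF (pow_ne_zero m hu), Fermat.Agent.S24Res.ord_algebraMap, zero_add,
    ← zpow_natCast, P.ord_zpow] at h1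
  refine ⟨D P - P.ord uF, ?_⟩
  rw [mul_sub, h1]
  ring

end Abstract

section Gauss

open Fermat.Agent.GaussInt ModularCurve

variable {K : Type*} [Field K] {A : ValuationSubring K}
  {F : IntermediateField K (LaurentSeries K)}

/-- normalising an element of the Gauss ring whose residue is `c̄ ū ^ m`. -/
theorem exists_normalised {f₁ u : LaurentSeries K} (hf₁ : f₁ ∈ gaussSub A F)
    (hu : u ∈ gaussSub A F) (hures : gaussResFun A F u ≠ 0) (a : A)
    (ha : IsLocalRing.residue A a ≠ 0) (m : ℕ)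
    (hres : gaussResFun A F f₁ =
      algebraMap (IsLocalRing.ResidueField A) (LaurentSeries (IsLocalRing.ResidueField A))
        (IsLocalRing.residue A a) * gaussResFun A F u ^ m) :
    ∃ g : LaurentSeries K, g ∈ gaussSub A F ∧ gaussResFun A F g = 1 ∧
      f₁ = algebraMap K (LaurentSeries K) (a : K) * u ^ m * g := by
  have haK : (a : K) ≠ 0 := by
    intro h0
    apply ha
    have : a = 0 := Subtype.ext h0
    rw [this, map_zero]
  have hca : algebraMap K (LaurentSeries K) (a : K) ∈ gaussSub A F :=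
    algebraMap_mem_gaussSub_iff.mpr a.2
  have hcares : gaussResFun A F (algebraMap K (LaurentSeries K) (a : K)) =
      algebraMap (IsLocalRing.ResidueField A) (LaurentSeries (IsLocalRing.ResidueField A))
        (IsLocalRing.residue A a) := gaussResFun_algebraMap a.2
  have hcares0 : gaussResFun A F (algebraMap K (LaurentSeries K) (a : K)) ≠ 0 := by
    rw [hcares]
    simpa using ha
  have hcaK : algebraMap K (LaurentSeries K) (a : K) ≠ 0 := by simpa using haK
  have hu0 : u ≠ 0 := by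
    rintro rfl
    apply hures
    exact map_zero (gaussRes A F)
  have hcai := inv_mem_gaussSub hca hcares0
  have hui := inv_mem_gaussSub hu hures
  have hcaires := gaussResFun_inv hca hcares0
  have huires := gaussResFun_inv hu hures
  refine ⟨f₁ * (algebraMap K (LaurentSeries K) (a : K))⁻¹ * u⁻¹ ^ m,
    mul_mem (mul_mem hf₁ hcai) (pow_mem hui m), ?_, ?_⟩
  · have h2 : gaussRes A F (⟨f₁, hf₁⟩ * ⟨_, hcai⟩ * ⟨_, hui⟩ ^ m) =
        gaussRes A F ⟨f₁, hf₁⟩ * gaussRes A F ⟨_, hcai⟩ * gaussRes A F ⟨_, hui⟩ ^ m := by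
      rw [map_mul, map_mul, map_pow]
    have h3 : gaussResFun A F (f₁ * (algebraMap K (LaurentSeries K) (a : K))⁻¹ * u⁻¹ ^ m) =
        gaussResFun A F f₁ * gaussResFun A F (algebraMap K (LaurentSeries K) (a : K))⁻¹ *
          gaussResFun A F u⁻¹ ^ m := h2
    rw [h3, hcaires, huires, hres, hcares]
    have hne : algebraMap (IsLocalRing.ResidueField A)
        (LaurentSeries (IsLocalRing.ResidueField A)) (IsLocalRing.residue A a) ≠ 0 := by
      simpa using ha
    rw [inv_pow, mul_right_comm, mul_inv_cancel_right₀ (pow_ne_zero m hures),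
      mul_inv_cancel₀ hne]
  · rw [inv_pow]
    have h4 : algebraMap K (LaurentSeries K) (a : K) * u ^ m *
        (f₁ * (algebraMap K (LaurentSeries K) (a : K))⁻¹ * (u ^ m)⁻¹) =
        f₁ * (algebraMap K (LaurentSeries K) (a : K) *
          (algebraMap K (LaurentSeries K) (a : K))⁻¹) * (u ^ m * (u ^ m)⁻¹) := by ring
    rw [h4, mul_inv_cancel₀ hcaK, mul_inv_cancel₀ (pow_ne_zero m hu0), mul_one, mul_one]

end Gauss

end Fermat.Agent.S18W
end
end MergeWrap_S18_WiringAbs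

section MergeWrap_S18_Wiring -- from S18/Wiring.lean

set_option autoImplicit false

/-!
# S18 from the KEY LEMMA in function form (`KeyLemmaAt N`)

`z = [D]` with `m z = 0`, i.e. `m D = div f`; scale `f` to a unit of the Gauss ring.  The GIVEN
reduction map `r₀` of the frozen statement satisfies `r₀_* (div f) = div (ρ f)` by its defining
property, and the hypothesis gives `r₀_* D = div ū`.  So `ρ f = c̄ ū ^ m`; lift `ū`, `c̄` and put
`g = f / (c u ^ m)`: `ρ g = 1` and `m ∣ div g`.  `KeyLemmaAt` gives `g = h ^ m`, hence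
`D = div (h u)`.  No uniqueness of `r₀` is used.

Inputs: helper5/helper66's Gauss ring ((R3): its residue field is `F_k = k(j̄_d : d ∣ N)`),
helper19's Riemann-Roch packages.
-/

noncomputable section

open ModularCurve AlgebraicCurve Fermat.Agent.GaussInt Fermat.Agent.RR

namespace Fermat.Agent.S18W

set_option synthInstance.maxHeartbeats 400000

/-- the defining property of a place reduction, for units of the Gauss ring. -/
theorem push_gaussSub (N : ℕ) [NeZero N] {ℓ : ℕ} (hℓ : ℓ.Prime) (hℓN : ¬ ℓ ∣ N)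
    (A : ValuationSubring (AlgebraicClosure ℚ)) (hA : A.LiesOverPrime ℓ)
    (hF : IsRRField (AlgebraicClosure ℚ) (modularFunctionFieldBar N))
    (r₀ : Place (AlgebraicClosure ℚ) (modularFunctionFieldBar N) →
      Place (IsLocalRing.ResidueField A) (modularFunctionFieldFullC (IsLocalRing.ResidueField A) N))
    (hr₀ : IsPlaceReductionModL A N r₀)
    (f₁ : modularFunctionFieldBar N)
    (hmem : (f₁ : LaurentSeries (AlgebraicClosure ℚ)) ∈ gaussSub A (modularFunctionFieldBar N))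
    (hres : gaussResFun A (modularFunctionFieldBar N)
      (f₁ : LaurentSeries (AlgebraicClosure ℚ)) ≠ 0) :
    ∃ fb : modularFunctionFieldFullC (IsLocalRing.ResidueField A) N,
      (fb : LaurentSeries (IsLocalRing.ResidueField A)) =
        gaussResFun A (modularFunctionFieldBar N) (f₁ : LaurentSeries (AlgebraicClosure ℚ)) ∧
      fb ≠ 0 ∧
      ∀ Q, Finsupp.mapDomain r₀ (divOf hF f₁) Q = Q.ord fb := by
  have hR3 := Fermat.Agent.GaussVal.gaussResFun_mem_fullC_of_isAlgClosed A ℓ N hℓ hA hℓN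
  obtain ⟨Y₁, Y₂, hpres⟩ := hmem
  have hresq := gaussResFun_eq hpres
  have hY₂ : red A Y₂ ≠ 0 := hpres.prim
  have hY₁ : red A Y₁ ≠ 0 := by
    intro h0
    apply hres
    rw [hresq, h0, zero_div]
  have hk₁ : red A Y₁ ∈ modularFunctionFieldFullC (IsLocalRing.ResidueField A) N := by
    have := hR3 _ (emb_mem_gaussSub hpres.mem₁)
    rwa [gaussResFun_emb hpres.mem₁] at this
  have hk₂ : red A Y₂ ∈ modularFunctionFieldFullC (IsLocalRing.ResidueField A) N := by
    have := hR3 _ (emb_mem_gaussSub hpres.mem₂)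
    rwa [gaussResFun_emb hpres.mem₂] at this
  obtain ⟨y₁, yb₁, hy₁, hyb₁, hpush₁⟩ : ∃ (y₁ : modularFunctionFieldBar N)
      (yb₁ : modularFunctionFieldFullC (IsLocalRing.ResidueField A) N),
      (y₁ : LaurentSeries (AlgebraicClosure ℚ)) = emb A Y₁ ∧
      (yb₁ : LaurentSeries (IsLocalRing.ResidueField A)) = red A Y₁ ∧
      ∀ Q, Finsupp.mapDomain r₀ (divOf hF y₁) Q = Q.ord yb₁ :=
    ⟨⟨emb A Y₁, hpres.mem₁⟩, ⟨red A Y₁, hk₁⟩, rfl, rfl, fun Q =>
      hr₀.2 Y₁ hpres.mem₁ hk₁ hY₁ (divOf hF ⟨emb A Y₁, hpres.mem₁⟩)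
        (fun P => divOf_apply hF _ P) Q⟩
  obtain ⟨y₂, yb₂, hy₂, hyb₂, hpush₂⟩ : ∃ (y₂ : modularFunctionFieldBar N)
      (yb₂ : modularFunctionFieldFullC (IsLocalRing.ResidueField A) N),
      (y₂ : LaurentSeries (AlgebraicClosure ℚ)) = emb A Y₂ ∧
      (yb₂ : LaurentSeries (IsLocalRing.ResidueField A)) = red A Y₂ ∧
      ∀ Q, Finsupp.mapDomain r₀ (divOf hF y₂) Q = Q.ord yb₂ :=
    ⟨⟨emb A Y₂, hpres.mem₂⟩, ⟨red A Y₂, hk₂⟩, rfl, rfl, fun Q =>
      hr₀.2 Y₂ hpres.mem₂ hk₂ hY₂ (divOf hF ⟨emb A Y₂, hpres.mem₂⟩)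
        (fun P => divOf_apply hF _ P) Q⟩
  have hyb₁0 : yb₁ ≠ 0 := by
    rintro rfl
    exact hY₁ hyb₁.symm
  have hyb₂0 : yb₂ ≠ 0 := by
    rintro rfl
    exact hY₂ hyb₂.symm
  have hy₂0 : y₂ ≠ 0 := by
    rintro rfl
    exact hpres.emb_ne_zero hy₂.symm
  have hf₁0 : f₁ ≠ 0 := by
    rintro rfl
    apply hres
    exact map_zero (gaussRes A (modularFunctionFieldBar N))
  have heq : f₁ * y₂ = y₁ := by
    apply Subtype.ext
    show (f₁ : LaurentSeries (AlgebraicClosure ℚ)) * (y₂ : LaurentSeries (AlgebraicClosure ℚ)) =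
      (y₁ : LaurentSeries (AlgebraicClosure ℚ))
    rw [hy₁, hy₂]
    exact hpres.eq
  refine ⟨yb₁ * yb₂⁻¹, ?_, mul_ne_zero hyb₁0 (inv_ne_zero hyb₂0), fun Q =>
    push_div hF r₀ hf₁0 hy₂0 heq hyb₁0 hyb₂0 hpush₁ hpush₂ Q⟩
  show (yb₁ : LaurentSeries (IsLocalRing.ResidueField A)) *
    ((yb₂ : LaurentSeries (IsLocalRing.ResidueField A)))⁻¹ = _
  rw [hyb₁, hyb₂, hresq, div_eq_mul_inv]

/-- **S18 from the KEY LEMMA in function form.** -/
theorem s18_of_keyLemmaAt (N : ℕ) [NeZero N] (hKey : KeyLemmaAt N) {ℓ : ℕ}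
    [Fact ℓ.Prime] (hℓN : ¬ ℓ ∣ N) (A : ValuationSubring (AlgebraicClosure ℚ))
    (hA : A.LiesOverPrime ℓ)
    (h : ModularCurve.ReductionInputsModL A N) (m : ℕ) (hm : ¬ ℓ ∣ m) (z : ModularCurve.JZero N)
    (hmz : m • z = 0) (hz : ModularCurve.reductionModL A N z = 0) :
    z = 0 := by
  classical
  have hℓ : ℓ.Prime := Fact.out
  have hAC : IsAlgClosed (IsLocalRing.ResidueField A) :=
    Fermat.Agent.FrobTrace.isAlgClosed_residueField A
  have hF := Fermat.Agent.RRMod.isRRField_bar N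
  have hFk := Fermat.Agent.RRMod.isRRField_fullC' (IsLocalRing.ResidueField A) N
  have hm0 : m ≠ 0 := by
    rintro rfl
    exact hm (dvd_zero ℓ)
  have hr₀ := isPlaceReductionModL_placeReductionModL h
  obtain ⟨D, rfl⟩ := Pic0.mk_surjective z
  -- `m D = div f`
  have hmD : m • (D : Divisor (AlgebraicClosure ℚ) (modularFunctionFieldBar N)) ∈
      Divisor.principal (K := AlgebraicClosure ℚ) (F := modularFunctionFieldBar N) := by
    have h1 : Pic0.mk (m • D) = 0 := by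
      rw [← hmz]
      rfl
    rw [Pic0.mk, QuotientAddGroup.eq_zero_iff, AddSubgroup.mem_addSubgroupOf] at h1
    exact h1
  obtain ⟨f, hf0, hfD⟩ := hmD
  -- `r₀_* D = div ū`
  rw [reductionModL_mk h D] at hz
  have hrD : Finsupp.mapDomain (placeReductionModL h)
      (D : Divisor (AlgebraicClosure ℚ) (modularFunctionFieldBar N)) ∈
      Divisor.principal (K := IsLocalRing.ResidueField A)
        (F := modularFunctionFieldFullC (IsLocalRing.ResidueField A) N) := by
    rw [Pic0.mk, QuotientAddGroup.eq_zero_iff, AddSubgroup.mem_addSubgroupOf] at hz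
    exact hz
  obtain ⟨ub, hub0, hubD⟩ := hrD
  generalize hD' : (D : Divisor (AlgebraicClosure ℚ) (modularFunctionFieldBar N)) = D'
    at hfD hubD
  -- scale `f` to a unit of the Gauss ring
  obtain ⟨c, hc0, hmem, hres⟩ := valueGroupAt N ℓ hℓ A hA f hf0
  obtain ⟨f₁, hf₁c, hf₁eq⟩ : ∃ f₁ : modularFunctionFieldBar N,
      (f₁ : LaurentSeries (AlgebraicClosure ℚ)) =
        algebraMap (AlgebraicClosure ℚ) (LaurentSeries (AlgebraicClosure ℚ)) c *
          (f : LaurentSeries (AlgebraicClosure ℚ)) ∧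
      f₁ = algebraMap (AlgebraicClosure ℚ) (modularFunctionFieldBar N) c * f :=
    ⟨algebraMap (AlgebraicClosure ℚ) (modularFunctionFieldBar N) c * f, rfl, rfl⟩
  rw [← hf₁c] at hmem hres
  have hcF : algebraMap (AlgebraicClosure ℚ) (modularFunctionFieldBar N) c ≠ 0 := by
    simpa using hc0
  have hdiv₁ : ∀ P : Place (AlgebraicClosure ℚ) (modularFunctionFieldBar N),
      (m • D') P = P.ord f₁ := by
    intro P
    rw [hfD P, hf₁eq, P.ord_mul hcF hf0, Fermat.Agent.S24Res.ord_algebraMap, zero_add]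
  obtain ⟨fb, hfbc, hfb0, hpush⟩ := push_gaussSub N hℓ hℓN A hA hF _ hr₀ f₁ hmem hres
  obtain ⟨cb, hcb0, hfbeq⟩ := exists_const_of_push hFk _ hF D' m hdiv₁ hfb0 hub0 hpush hubD
  -- lift `ū` and `c̄`
  obtain ⟨u, hu, hures⟩ := Fermat.Agent.GaussVal.exists_gaussResFun_eq_of_mem A N
    (ub : LaurentSeries (IsLocalRing.ResidueField A)) ub.2
  obtain ⟨a, ha⟩ := IsLocalRing.residue_surjective cb
  have hures0 : gaussResFun A (modularFunctionFieldBar N) u ≠ 0 := by
    rw [hures]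
    exact fun h0 => hub0 (Subtype.ext h0)
  have hres₁ : gaussResFun A (modularFunctionFieldBar N)
      (f₁ : LaurentSeries (AlgebraicClosure ℚ)) =
      algebraMap (IsLocalRing.ResidueField A) (LaurentSeries (IsLocalRing.ResidueField A))
        (IsLocalRing.residue A a) * gaussResFun A (modularFunctionFieldBar N) u ^ m := by
    rw [← hfbc, hfbeq, hures, ha]
    rfl
  obtain ⟨g, hg, hgres, hfg⟩ :=
    exists_normalised hmem hu hures0 a (by rw [ha]; exact hcb0) m hres₁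
  obtain ⟨gF, hgF⟩ : ∃ gF : modularFunctionFieldBar N,
      (gF : LaurentSeries (AlgebraicClosure ℚ)) = g := ⟨⟨g, mem_of_mem_gaussSub hg⟩, rfl⟩
  obtain ⟨uF, huF⟩ : ∃ uF : modularFunctionFieldBar N,
      (uF : LaurentSeries (AlgebraicClosure ℚ)) = u := ⟨⟨u, mem_of_mem_gaussSub hu⟩, rfl⟩
  have hfgF : f₁ = algebraMap (AlgebraicClosure ℚ) (modularFunctionFieldBar N) (a : _) *
      uF ^ m * gF := by
    apply Subtype.ext
    show (f₁ : LaurentSeries (AlgebraicClosure ℚ)) =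
      algebraMap (AlgebraicClosure ℚ) (LaurentSeries (AlgebraicClosure ℚ)) (a : _) *
        (uF : LaurentSeries (AlgebraicClosure ℚ)) ^ m * (gF : LaurentSeries (AlgebraicClosure ℚ))
    rw [huF, hgF]
    exact hfg
  have huF0 : uF ≠ 0 := by
    rintro rfl
    apply hures0
    rw [← huF]
    exact map_zero (gaussRes A (modularFunctionFieldBar N))
  have hgF0 : gF ≠ 0 := by
    rintro rfl
    have h1 : gaussResFun A (modularFunctionFieldBar N) g = 0 := by
      rw [← hgF]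
      exact map_zero (gaussRes A (modularFunctionFieldBar N))
    rw [hgres] at h1
    exact one_ne_zero h1
  have haK : ((a : A) : AlgebraicClosure ℚ) ≠ 0 := by
    intro h0
    apply hcb0
    have : a = 0 := Subtype.ext h0
    rw [← ha, this, map_zero]
  have hdvd : ∀ P : Place (AlgebraicClosure ℚ) (modularFunctionFieldBar N),
      (m : ℤ) ∣ P.ord gF := fun P => dvd_ord_of_eq D' haK huF0 hgF0 hdiv₁ hfgF P
  have hnot : ¬ ℓ ∣ N * m := by
    intro hdvd'
    rcases (Nat.Prime.dvd_mul hℓ).mp hdvd' with h1 | h1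
    · exact hℓN h1
    · exact hm h1
  obtain ⟨hh, hhpow⟩ := hKey m ℓ hℓ hnot A hA gF hgF0 hdvd (by rw [hgF]; exact hg)
    (by rw [hgF]; exact hgres)
  have hfin := fun P => ord_mul_of_pow_eq D' hm0 haK huF0 hgF0 hdiv₁ hfgF hhpow P
  have hh0 : hh ≠ 0 := by
    rintro rfl
    rw [zero_pow hm0] at hhpow
    exact hgF0 hhpow.symm
  rw [Pic0.mk, QuotientAddGroup.eq_zero_iff, AddSubgroup.mem_addSubgroupOf, hD']
  exact ⟨hh * uF, mul_ne_zero hh0 huF0, hfin⟩

end Fermat.Agent.S18W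
end
end MergeWrap_S18_Wiring

section MergeWrap_S18 -- from S18.lean

set_option autoImplicit false
open ModularCurve

namespace Fermat.Agent.S18

theorem result (N : ℕ) [NeZero N] {ℓ : ℕ}
    [Fact ℓ.Prime] (hℓN : ¬ ℓ ∣ N) (A : ValuationSubring (AlgebraicClosure ℚ)) (hA : A.LiesOverPrime ℓ)
    (h : ModularCurve.ReductionInputsModL A N) (m : ℕ) (hm : ¬ ℓ ∣ m) (z : ModularCurve.JZero N)
    (hmz : m • z = 0) (hz : ModularCurve.reductionModL A N z = 0) :
    z = 0 :=
  Fermat.Agent.S18W.s18_of_keyLemmaAt N (Fermat.Agent.GaussInt.keyLemmaAt_all N) hℓN A hA h m hm z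
    hmz hz

end Fermat.Agent.S18
end MergeWrap_S18

section MergeWrap_E_S15_Assembly -- from E/S15/Assembly.lean

set_option autoImplicit false
set_option linter.style.haveILetI false

noncomputable section

open ModularCurve AlgebraicCurve WeierstrassCurve WeierstrassCurve.Affine

set_option synthInstance.maxHeartbeats 400000

namespace Fermat.Agent.ES15

local notation "Qb" => AlgebraicClosure ℚ
local notation "GQb" => (AlgebraicClosure ℚ ≃ₐ[ℚ] AlgebraicClosure ℚ)

/-! ### arithmetic -/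

theorem not_dvd_pred_of_dvd_sq_sub_one {p ℓ : ℕ} (hp : p.Prime) (hp5 : 5 ≤ p) (hℓ : ℓ.Prime)
    (h : p ∣ ℓ ^ 2 - 1) : ¬ ℓ ∣ p - 1 := by
  intro hdiv
  have hℓ2 := hℓ.two_le
  have hle : ℓ ≤ p - 1 := Nat.le_of_dvd (by omega) hdiv
  have hfac : ℓ ^ 2 - 1 = (ℓ - 1) * (ℓ + 1) := by
    have : ℓ ^ 2 = (ℓ - 1) * (ℓ + 1) + 1 := by
      obtain ⟨k, rfl⟩ : ∃ k, ℓ = k + 1 := ⟨ℓ - 1, by omega⟩
      simp only [Nat.add_sub_cancel]
      ring
    omega
  rw [hfac] at h
  rcases (Nat.Prime.dvd_mul hp).mp h with h1 | h1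
  · have := Nat.le_of_dvd (by omega) h1
    omega
  · have h2 := Nat.le_of_dvd (by omega) h1
    have hℓp : ℓ = p - 1 := by omega
    have hodd : ¬ 2 ∣ p := by
      intro h2p
      have := (Nat.prime_dvd_prime_iff_eq Nat.prime_two hp).mp h2p
      omega
    have h2ℓ : 2 ∣ ℓ := by
      rw [hℓp]
      omega
    have := (Nat.prime_dvd_prime_iff_eq Nat.prime_two hℓ).mp h2ℓ
    omega

/-! ### classes of differences of places -/

section Cls

variable {p : ℕ}

theorem single_sub_single_mem_degZero (h1 : ∀ P : Pl p, P.deg = 1) (P P' : Pl p) :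
    (Finsupp.single P 1 - Finsupp.single P' 1 : Divisor Qb (modularFunctionFieldBar p)) ∈
      Divisor.degZero (K := Qb) (F := modularFunctionFieldBar p) := by
  rw [Divisor.mem_degZero, map_sub, Divisor.degree_single, Divisor.degree_single, h1, h1]
  simp

theorem clsDiff_eq (h1 : ∀ P : Pl p, P.deg = 1) (P P' : Pl p) :
    clsDiff p P P' = Pic0.mk ⟨_, single_sub_single_mem_degZero h1 P P'⟩ := by
  unfold clsDiff clsOf
  rw [dif_pos (single_sub_single_mem_degZero h1 P P')]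

theorem clsDiff_add (h1 : ∀ P : Pl p, P.deg = 1) (P P' P'' : Pl p) :
    clsDiff p P P' + clsDiff p P' P'' = clsDiff p P P'' := by
  rw [clsDiff_eq h1, clsDiff_eq h1, clsDiff_eq h1, ← Pic0.mk_add]
  congr 1
  apply Subtype.ext
  show (Finsupp.single P 1 - Finsupp.single P' 1 : Divisor Qb (modularFunctionFieldBar p)) +
    (Finsupp.single P' 1 - Finsupp.single P'' 1) = Finsupp.single P 1 - Finsupp.single P'' 1
  abel

theorem smul_single_sub_single (g : SemilinearAut Qb (modularFunctionFieldBar p)) (P P' : Pl p) :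
    g • (Finsupp.single P 1 - Finsupp.single P' 1 : Divisor Qb (modularFunctionFieldBar p)) =
      Finsupp.single (g • P) 1 - Finsupp.single (g • P') 1 := by
  rw [smul_sub, SemilinearAut.smul_single, SemilinearAut.smul_single]

theorem smul_clsDiff (h1 : ∀ P : Pl p, P.deg = 1) (σ : GQb) (P P' : Pl p) :
    σ • clsDiff p P P' =
      clsDiff p (arithmeticGalois (modularFunctionFieldFull p) σ • P)
        (arithmeticGalois (modularFunctionFieldFull p) σ • P') := by
  rw [clsDiff_eq h1, clsDiff_eq h1]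
  refine (galois_smul_pic0_def (modularFunctionFieldFull p) σ _).trans
    ((SemilinearAut.pic0_smul_mk _ _).trans (congrArg Pic0.mk (Subtype.ext ?_)))
  exact smul_single_sub_single _ P P'

theorem red_clsDiff {A : ValuationSubring Qb} (h : ReductionInputsModL A p)
    (h1 : ∀ P : Pl p, P.deg = 1) (P P' : Pl p)
    (hr : placeReductionModL h P = placeReductionModL h P') :
    reductionModL A p (clsDiff p P P') = 0 := by
  rw [clsDiff_eq h1, reductionModL_mk h]
  have h0 : reductionDegZeroAlong (placeReductionModL h)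
      (isPlaceReductionModL_placeReductionModL h).1
      ⟨_, single_sub_single_mem_degZero h1 P P'⟩ = 0 := by
    apply Subtype.ext
    rw [coe_reductionDegZeroAlong]
    show Finsupp.mapDomain (placeReductionModL h)
      (Finsupp.single P 1 - Finsupp.single P' 1 : Divisor Qb (modularFunctionFieldBar p)) = 0
    rw [Finsupp.mapDomain_sub, Finsupp.mapDomain_single, Finsupp.mapDomain_single, hr, sub_self]
  rw [h0]
  rfl

end Cls

/-! ### Galois action -/

section Gal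

variable {p : ℕ}

/-- the Galois action on places -/
abbrev gP (p : ℕ) (σ : GQb) (P : Pl p) : Pl p :=
  arithmeticGalois (modularFunctionFieldFull p) σ • P

theorem gal_jdB (N d : ℕ) [NeZero d] (hd : d ∣ N) (σ : GQb) :
    arithmeticGalois (modularFunctionFieldFull N) σ • jdB N d hd = jdB N d hd := by
  apply Subtype.ext
  rw [coe_arithmeticGalois_smul]
  exact coeffMap_coeffEmb σ _

theorem valAt_gP_jdB (N d : ℕ) [NeZero d] (hd : d ∣ N) (σ : GQb) {x : Pl N} {a : ℚ}
    (h : ValAt x (jdB N d hd) (algebraMap ℚ Qb a)) :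
    ValAt (gP N σ x) (jdB N d hd) (algebraMap ℚ Qb a) := by
  have h1 := Fermat.Agent.S17.Pts.congAt_smul (arithmeticGalois (modularFunctionFieldFull N) σ) h
  rw [gal_jdB, baseAut_arithmeticGalois] at h1
  have e : σ.toRingEquiv (algebraMap ℚ Qb a) = algebraMap ℚ Qb a := σ.commutes a
  rw [e] at h1
  exact h1

theorem gP_cuspInf (σ : GQb) : gP p σ (cuspInf p) = cuspInf p :=
  Fermat.Agent.S17.Setup.galPlace_cuspPlace p σ

theorem isCuspZero_gP (σ : GQb) {P0 : Pl p} (h : IsCuspZero p P0) : IsCuspZero p (gP p σ P0) := by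
  refine ⟨fun hc => h.1 ?_, ?_⟩
  · have h2 : gP p σ⁻¹ (gP p σ P0) = P0 := by
      show arithmeticGalois (modularFunctionFieldFull p) σ⁻¹ •
        (arithmeticGalois (modularFunctionFieldFull p) σ • P0) = P0
      rw [map_inv, inv_smul_smul]
    rw [← h2, hc, gP_cuspInf]
  · have := Fermat.Agent.S17.Pts.ord_smul_of_fixed
      (arithmeticGalois (modularFunctionFieldFull p) σ) P0 (gal_jdB p 1 (one_dvd p) σ)
    show (gP p σ P0).ord (jB p) < 0
    unfold gP jB
    rw [this]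
    exact h.2

end Gal

/-! ### the kernel of the reduction is stable under `ℤ[T_r : r ∉ S]` -/

theorem red_adjoin {p : ℕ} [NeZero p] (hF : HeckeRedStable p) (S : Finset ℕ)
    {ℓ : ℕ} (hℓ : ℓ.Prime) (hℓp : ℓ ≠ p) (hℓS : ℓ ∈ S) (hpS : p ∈ S)
    (A : ValuationSubring Qb) (hA : A.LiesOverPrime ℓ)
    {t : Module.End ℤ (JZero p)} (ht : t ∈ Algebra.adjoin ℤ (heckeSet p S)) :
    ∀ z : JZero p, reductionModL A p z = 0 → reductionModL A p (t z) = 0 := by
  induction ht using Algebra.adjoin_induction with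
  | mem T hT =>
    obtain ⟨r, hr, rfl⟩ := hT
    intro z hz
    exact hF ℓ hℓ hℓp A hA r (fun h => hr (h ▸ hℓS)) (fun h => hr (h ▸ hpS)) z hz
  | algebraMap n =>
    intro z hz
    rw [Module.algebraMap_end_apply, map_zsmul, hz, smul_zero]
  | add T T' _ _ hT hT' =>
    intro z hz
    rw [LinearMap.add_apply, map_add, hT z hz, hT' z hz, add_zero]
  | mul T T' _ _ hT hT' =>
    intro z hz
    rw [Module.End.mul_apply]
    exact hT _ (hT' z hz)

/-- S18 for a torsion point whose reduction vanishes at two places of different residue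
characteristics. -/
theorem eq_zero_of_red_two {p : ℕ} [NeZero p] {ℓ₁ ℓ₂ : ℕ} (h₁ : ℓ₁.Prime) (h₂ : ℓ₂.Prime)
    (h12 : ℓ₁ ≠ ℓ₂) (hp1 : ¬ ℓ₁ ∣ p) (hp2 : ¬ ℓ₂ ∣ p)
    (A₁ A₂ : ValuationSubring Qb) (hA₁ : A₁.LiesOverPrime ℓ₁) (hA₂ : A₂.LiesOverPrime ℓ₂)
    (hR₁ : ReductionInputsModL A₁ p) (hR₂ : ReductionInputsModL A₂ p)
    (w : JZero p) (m : ℕ) (hm : 0 < m) (hmw : m • w = 0)
    (hw₁ : reductionModL A₁ p w = 0) (hw₂ : reductionModL A₂ p w = 0) : w = 0 := by
  haveI : Fact ℓ₁.Prime := ⟨h₁⟩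
  haveI : Fact ℓ₂.Prime := ⟨h₂⟩
  obtain ⟨a, m', hm', rfl⟩ := Nat.exists_eq_pow_mul_and_not_dvd hm.ne' ℓ₁ h₁.ne_one
  -- `ℓ₁ ^ a • w` is killed by `m'`, prime to `ℓ₁`
  have hw1 : ℓ₁ ^ a • w = 0 := by
    refine Fermat.Agent.S18.result p hp1 A₁ hA₁ hR₁ m' hm' (ℓ₁ ^ a • w) ?_ ?_
    · rw [← mul_smul, mul_comm]
      exact hmw
    · rw [map_nsmul, hw₁, smul_zero]
  refine Fermat.Agent.S18.result p hp2 A₂ hA₂ hR₂ (ℓ₁ ^ a) ?_ w hw1 hw₂
  intro hdvd
  have := (Nat.prime_dvd_prime_iff_eq h₂ h₁).1 (h₂.dvd_of_dvd_pow hdvd)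
  exact h12 this.symm

/-- **S15 from its inputs.** -/
theorem s15_of_inputs {p : ℕ} [NeZero p] (hp : p.Prime) (hp' : p ∉ ({2, 3, 5, 7, 13} : Finset ℕ))
    (hD0 : CuspZeroData p) (hD2 : CuspTorsion p) (hB : RedInputs p) (hC : CuspReduction p)
    (hF : HeckeRedStable p) (hEL : ZeroCompOrder p) (hMP : ModuliPoint p)
    (hE : EisensteinDescent p) : S15At p := by
  intro W hΔ Q hQfix hQord h2Δ h2c₄ h2 h3Δ h3c₄ h3 ℓ hℓ hℓp hℓΔ hℓc₄ A hA hin
  simp only [Finset.mem_insert, Finset.mem_singleton, not_or] at hp'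
  obtain ⟨hp2, hp3, -, -, -⟩ := hp'
  have hp5 : 5 ≤ p := by
    have h2le := hp.two_le
    by_contra hcon
    have h4 : p ≠ 4 := fun h => by rw [h] at hp; exact (by decide : ¬ Nat.Prime 4) hp
    omega
  have h1 := hD0.deg_one
  obtain ⟨a, b, x, hxa, hxb, hval⟩ := hMP W hΔ Q hQfix hQord
  obtain ⟨P0, hP0⟩ := hD0.ex
  -- the reduction at `A`
  have hRA := hB ℓ hℓ hℓp A hA
  have hr := isPlaceReductionModL_placeReductionModL hRA
  obtain ⟨haA, -, hvin⟩ := hval ℓ hℓ hℓp hℓΔ hℓc₄ A hA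
  have hvA := hvin hin
  obtain ⟨hC1, -, hC3⟩ := hC ℓ hℓ hℓp A hA (placeReductionModL hRA) hr P0 hP0 _ _ x hxa hxb haA
  have hrx : placeReductionModL hRA x = placeReductionModL hRA (cuspInf p) := hC1 hvA
  -- `x` and `P0` are Galois-fixed
  have hxfix : ∀ σ : GQb, gP p σ x = x := by
    intro σ
    have hxa' : ValAt (gP p σ x) (jB p) (algebraMap ℚ Qb a) := valAt_gP_jdB p 1 (one_dvd p) σ hxa
    have hxb' : ValAt (gP p σ x) (jpB p) (algebraMap ℚ Qb b) := valAt_gP_jdB p p dvd_rfl σ hxb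
    obtain ⟨hC1', -, -⟩ :=
      hC ℓ hℓ hℓp A hA (placeReductionModL hRA) hr P0 hP0 _ _ (gP p σ x) hxa' hxb' haA
    exact hC3 hrx (gP p σ x) hxa' (hC1' hvA)
  have hP0fix : ∀ σ : GQb, gP p σ P0 = P0 := fun σ =>
    hD0.uniq _ _ (isCuspZero_gP σ hP0) hP0
  have hzfix : ∀ σ : GQb, σ • clsDiff p x P0 = clsDiff p x P0 := by
    intro σ
    rw [smul_clsDiff h1]
    show clsDiff p (gP p σ x) (gP p σ P0) = _
    rw [hxfix, hP0fix]
  -- the Hecke element `t`
  obtain ⟨t, ht, htors, htc⟩ := hE ({2, 3, ℓ, p} : Finset ℕ)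
  obtain ⟨m, hm, hmz⟩ := htors _ hzfix
  -- the places over `2` and `3`
  obtain ⟨A2, hA2⟩ := Fermat.Agent.FrobExists.exists_valuationSubring_liesOver 2 Nat.prime_two
  obtain ⟨A3, hA3⟩ := Fermat.Agent.FrobExists.exists_valuationSubring_liesOver 3 Nat.prime_three
  have hR2 := hB 2 Nat.prime_two (Ne.symm hp2) A2 hA2
  have hR3 := hB 3 Nat.prime_three (Ne.symm hp3) A3 hA3
  have hz2 : reductionModL A2 p (clsDiff p x P0) = 0 := by
    obtain ⟨ha2, hv2, -⟩ := hval 2 Nat.prime_two (Ne.symm hp2) (by exact_mod_cast h2Δ)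
      (by exact_mod_cast h2c₄) A2 hA2
    obtain ⟨-, hC2, -⟩ := hC 2 Nat.prime_two (Ne.symm hp2) A2 hA2 (placeReductionModL hR2)
      (isPlaceReductionModL_placeReductionModL hR2) P0 hP0 _ _ x hxa hxb ha2
    exact red_clsDiff hR2 h1 x P0 (hC2 (hv2 (h2 A2 hA2)))
  have hz3 : reductionModL A3 p (clsDiff p x P0) = 0 := by
    obtain ⟨ha3, hv3, -⟩ := hval 3 Nat.prime_three (Ne.symm hp3) (by exact_mod_cast h3Δ)
      (by exact_mod_cast h3c₄) A3 hA3
    obtain ⟨-, hC2, -⟩ := hC 3 Nat.prime_three (Ne.symm hp3) A3 hA3 (placeReductionModL hR3)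
      (isPlaceReductionModL_placeReductionModL hR3) P0 hP0 _ _ x hxa hxb ha3
    exact red_clsDiff hR3 h1 x P0 (hC2 (hv3 (h3 A3 hA3)))
  -- `w = t z = 0`
  have hw2 : reductionModL A2 p (t (clsDiff p x P0)) = 0 :=
    red_adjoin hF _ Nat.prime_two (Ne.symm hp2) (by simp) (by simp) A2 hA2 ht _ hz2
  have hw3 : reductionModL A3 p (t (clsDiff p x P0)) = 0 :=
    red_adjoin hF _ Nat.prime_three (Ne.symm hp3) (by simp) (by simp) A3 hA3 ht _ hz3
  have hnd : ∀ {q : ℕ}, q.Prime → q ≠ p → ¬ q ∣ p := fun hq hqp h =>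
    hqp ((Nat.prime_dvd_prime_iff_eq hq hp).1 h)
  have hw : t (clsDiff p x P0) = 0 :=
    eq_zero_of_red_two Nat.prime_two Nat.prime_three (by norm_num)
      (hnd Nat.prime_two (Ne.symm hp2)) (hnd Nat.prime_three (Ne.symm hp3))
      A2 A3 hA2 hA3 hR2 hR3 _ m hm hmz hw2 hw3
  -- at `A`
  have hzc : reductionModL A p (clsDiff p x P0 + cuspClass p P0) = 0 := by
    unfold cuspClass
    rw [clsDiff_add h1]
    exact red_clsDiff hRA h1 x (cuspInf p) hrx
  have htzc := red_adjoin hF _ hℓ hℓp (by simp) (by simp) A hA ht _ hzc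
  rw [map_add, hw, zero_add] at htzc
  have hpc : (p - 1) • t (cuspClass p P0) = 0 := by
    rw [← map_nsmul, hD2 P0 hP0, map_zero]
  have hdvd : p ∣ ℓ ^ 2 - 1 := hEL W Q hQfix hQord ℓ hℓ hℓp hℓΔ hℓc₄ A hA hin
  have hnot : ¬ ℓ ∣ p - 1 := not_dvd_pred_of_dvd_sq_sub_one hp hp5 hℓ hdvd
  haveI : Fact ℓ.Prime := ⟨hℓ⟩
  exact htc P0 hP0
    (Fermat.Agent.S18.result p (hnd hℓ hℓp) A hA hRA (p - 1) hnot _ hpc htzc)

end Fermat.Agent.ES15
end
end MergeWrap_E_S15_Assembly
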