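import Mathlib
import Fermat.Agent.MUL.Lib.BadRed.Mod.UParamW
import Fermat.Agent.MUL.Lib.BadRed.HPVal.CharPole

section MergeWrap_E_S15_CuspCore -- from E/S15/CuspCore.lean

/-!
# Cluster E (Mazur), piece E-D (cuspidal class), the function-field core  (helper98)

`N = Q R`, `Q` prime, `gcd (Q, R) = 1`, `u = Δ(z) / Δ(Q z) ∈ F_N = ℚ̄(X₀(N))` (helper68's `uF`),
`w = w_Q` the Atkin–Lehner involution (helper84), `w (u) · u = Q ^ 12`.

`dvd_of_pow_eq_mul_uF_pow`: if `G ^ e = c₀ · u ^ m` with `G ∈ F_N`, `c₀ ∈ ℚ̄ˣ`, `e ≥ 1`, then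
`e ∣ 12 m`.

Proof (Ogg's argument, algebraically).  Normalise `G` to leading coefficient `1`; then
`G ^ e = u ^ m` and `G` is fixed by the action of `Gal(ℚ̄/ℚ)` on the coefficients (the quotient
`σ G / G` is an `e`-th root of unity of `ℚ̄((q))`, a constant, with leading coefficient `1`).
`x = G · w (G)` has `x ^ e = Q ^ (12 m)`, so `x` is a constant, Galois-fixed since `w` commutes
with the Galois action, so `x ∈ ℚ`, and `e · v_Q (x) = 12 m`.
-/

set_option autoImplicit false
set_option linter.unusedSectionVars false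
set_option linter.style.haveILetI false

noncomputable section

namespace Fermat.Agent.ED

open ModularCurve Fermat.Agent.AtkinLehner Fermat.Agent.BadRed HahnSeries

local notation "Qb" => AlgebraicClosure ℚ

/-! ### leading coefficients of Laurent series -/

section Lc

variable {K K' : Type*} [Field K] [Field K']

lemma order_coeffMap (f : K →+* K') (x : LaurentSeries K) :
    (coeffMap f x).order = x.order := by
  rcases eq_or_ne x 0 with rfl | hx
  · simp
  have hfx : coeffMap f x ≠ 0 := by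
    intro h0
    have h1 := congrArg (fun y : LaurentSeries K' => y.coeff x.order) h0
    simp only [coeffMap_coeff, HahnSeries.coeff_zero] at h1
    exact hx (HahnSeries.coeff_order_eq_zero.mp ((map_eq_zero f).mp h1))
  apply le_antisymm
  · apply HahnSeries.order_le_of_coeff_ne_zero
    rw [coeffMap_coeff]
    exact fun h => hx (HahnSeries.coeff_order_eq_zero.mp ((map_eq_zero f).mp h))
  · apply HahnSeries.order_le_of_coeff_ne_zero
    intro h
    apply hfx
    apply HahnSeries.coeff_order_eq_zero.mp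
    rw [coeffMap_coeff, h, map_zero]

lemma leadingCoeff_coeffMap (f : K →+* K') (x : LaurentSeries K) :
    (coeffMap f x).leadingCoeff = f x.leadingCoeff := by
  rw [HahnSeries.leadingCoeff_eq, HahnSeries.leadingCoeff_eq, order_coeffMap, coeffMap_coeff]

lemma leadingCoeff_pow' (x : LaurentSeries K) (n : ℕ) :
    (x ^ n).leadingCoeff = x.leadingCoeff ^ n := by
  induction n with
  | zero => simp [HahnSeries.leadingCoeff_one]
  | succ n ih => rw [pow_succ, HahnSeries.leadingCoeff_mul, ih, pow_succ]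

lemma leadingCoeff_algebraMap (c : K) :
    (algebraMap K (LaurentSeries K) c).leadingCoeff = c := by
  rw [algebraMap_laurentSeries_eq_single, HahnSeries.leadingCoeff_of_single]

lemma leadingCoeff_uSer (q : ℕ) : (uSer K q).leadingCoeff = 1 := by
  have h1 : (uSer K q).coeff (-((q : ℤ) - 1)) = 1 := coeff_uSer_self K q
  have hne : uSer K q ≠ 0 := uSer_ne_zero K q
  have ho : (uSer K q).order = -((q : ℤ) - 1) := by
    apply le_antisymm
    · apply HahnSeries.order_le_of_coeff_ne_zero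
      rw [h1]
      exact one_ne_zero
    · by_contra hlt
      rw [not_le] at hlt
      exact hne (HahnSeries.coeff_order_eq_zero.mp (coeff_uSer_of_lt K q hlt))
  rw [HahnSeries.leadingCoeff_eq, ho, h1]

end Lc

/-- an element algebraic over an algebraically closed field of constants is a constant. -/
theorem exists_const_of_isAlgebraic {K F : Type*} [Field K] [Field F] [Algebra K F]
    [IsAlgClosed K] {f : F} (halg : IsAlgebraic K f) : ∃ a : K, algebraMap K F a = f := by
  have hint : IsIntegral K f := halg.isIntegral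
  refine ⟨-(minpoly K f).coeff 0, ?_⟩
  have hq : (minpoly K f).leadingCoeff = 1 := minpoly.monic hint
  have h : (minpoly K f).degree = 1 :=
    IsAlgClosed.degree_eq_one_of_irreducible K (minpoly.irreducible hint)
  have : Polynomial.aeval f (minpoly K f) = 0 := minpoly.aeval K f
  rw [Polynomial.eq_X_add_C_of_degree_eq_one h, hq, Polynomial.C_1, one_mul, Polynomial.aeval_add,
    Polynomial.aeval_X, Polynomial.aeval_C, add_eq_zero_iff_eq_neg] at this
  exact (map_neg (algebraMap K F) ((minpoly K f).coeff 0)).symm ▸ this.symm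

/-! ### the core -/

section Core

variable (D : ALData) [NeZero D.Q] [NeZero (D.Q * D.R)]

/-- leading coefficient of the `q`-expansion of an element of `F_N`. -/
def lc (G : modularFunctionFieldBar (D.Q * D.R)) : Qb :=
  (G : LaurentSeries Qb).leadingCoeff

lemma lc_mul (G H : modularFunctionFieldBar (D.Q * D.R)) : lc D (G * H) = lc D G * lc D H := by
  unfold lc
  rw [MulMemClass.coe_mul, HahnSeries.leadingCoeff_mul]

lemma lc_pow (G : modularFunctionFieldBar (D.Q * D.R)) (n : ℕ) : lc D (G ^ n) = lc D G ^ n := by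
  unfold lc
  rw [SubmonoidClass.coe_pow, leadingCoeff_pow']

lemma lc_algebraMap (c : Qb) :
    lc D (algebraMap Qb (modularFunctionFieldBar (D.Q * D.R)) c) = c := by
  unfold lc
  exact leadingCoeff_algebraMap c

lemma lc_ne_zero {G : modularFunctionFieldBar (D.Q * D.R)} (hG : G ≠ 0) : lc D G ≠ 0 := by
  unfold lc
  rw [HahnSeries.leadingCoeff_ne_zero]
  exact fun h => hG (Subtype.ext h)

lemma lc_uF : lc D (uF (D.Q * D.R) D.Q (Dvd.intro _ rfl)) = 1 := by
  unfold lc
  rw [coe_uF]
  exact leadingCoeff_uSer D.Q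

lemma lc_arithmeticRingAut (σ : Qb ≃ₐ[ℚ] Qb) (G : modularFunctionFieldBar (D.Q * D.R)) :
    lc D (arithmeticRingAut (modularFunctionFieldFull (D.Q * D.R)) σ G) = σ (lc D G) := by
  unfold lc
  rw [coe_arithmeticRingAut_apply, leadingCoeff_coeffMap]
  rfl

lemma arithmeticRingAut_uF (σ : Qb ≃ₐ[ℚ] Qb) :
    arithmeticRingAut (modularFunctionFieldFull (D.Q * D.R)) σ
      (uF (D.Q * D.R) D.Q (Dvd.intro _ rfl)) = uF (D.Q * D.R) D.Q (Dvd.intro _ rfl) := by
  apply Subtype.ext
  rw [coe_arithmeticRingAut_apply, coe_uF, coeffMap_uSer]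

/-- an element of `F_N` with `x ^ e = 1` (`e ≥ 1`) and leading coefficient `1` is `1`. -/
lemma eq_one_of_pow_eq_one {x : modularFunctionFieldBar (D.Q * D.R)} {e : ℕ} (he : 0 < e)
    (hx : x ^ e = 1) (hlc : lc D x = 1) : x = 1 := by
  have halg : IsAlgebraic Qb x := by
    refine ⟨Polynomial.X ^ e - 1, ?_, ?_⟩
    · exact Polynomial.X_pow_sub_C_ne_zero he (1 : Qb)
    · simp [hx]
  obtain ⟨c, rfl⟩ := exists_const_of_isAlgebraic halg
  rw [lc_algebraMap] at hlc
  rw [hlc, map_one]

/-- **Ogg's lemma, function-field form.**  If `G ^ e = c₀ u ^ m` in `F_N`, `N = Q R`, `Q` prime,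
`u = Δ(z)/Δ(Qz)`, then `e ∣ 12 m`. -/
theorem dvd_of_pow_eq_mul_uF_pow (hQ : D.Q.Prime)
    (G : modularFunctionFieldBar (D.Q * D.R)) {e : ℕ} (he : 0 < e) (m : ℕ) (c₀ : Qb)
    (hc₀ : c₀ ≠ 0)
    (hG : G ^ e = algebraMap Qb (modularFunctionFieldBar (D.Q * D.R)) c₀ *
      uF (D.Q * D.R) D.Q (Dvd.intro _ rfl) ^ m) :
    e ∣ 12 * m := by
  set u := uF (D.Q * D.R) D.Q (Dvd.intro _ rfl) with hu
  have hu0 : u ≠ 0 := uF_ne_zero _ _ _
  have hc₀' : algebraMap Qb (modularFunctionFieldBar (D.Q * D.R)) c₀ ≠ 0 := by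
    rwa [ne_eq, map_eq_zero_iff _ (algebraMap Qb _).injective]
  have hG0 : G ≠ 0 := by
    rintro rfl
    rw [zero_pow he.ne'] at hG
    exact mul_ne_zero hc₀' (pow_ne_zero m hu0) hG.symm
  -- normalise
  set a := lc D G with ha
  have ha0 : a ≠ 0 := lc_ne_zero D hG0
  set G₁ := algebraMap Qb (modularFunctionFieldBar (D.Q * D.R)) a⁻¹ * G with hG₁
  have hG₁0 : G₁ ≠ 0 := by
    refine mul_ne_zero ?_ hG0
    rw [ne_eq, map_eq_zero_iff _ (algebraMap Qb _).injective]
    exact inv_ne_zero ha0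
  have hlc₁ : lc D G₁ = 1 := by
    rw [hG₁, lc_mul, lc_algebraMap, ← ha, inv_mul_cancel₀ ha0]
  have hG₁e : G₁ ^ e = u ^ m := by
    have h1 : G₁ ^ e = algebraMap Qb (modularFunctionFieldBar (D.Q * D.R)) ((a⁻¹) ^ e * c₀) *
        u ^ m := by
      rw [hG₁, mul_pow, hG, map_mul, map_pow]
      ring
    have h2 := congrArg (lc D) h1
    rw [lc_pow, hlc₁, one_pow, lc_mul, lc_algebraMap, lc_pow, hu, lc_uF, one_pow, mul_one] at h2
    rw [h1, ← h2, map_one, one_mul]
  -- Galois invariance of `G₁`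
  have hfix : ∀ σ : Qb ≃ₐ[ℚ] Qb,
      arithmeticRingAut (modularFunctionFieldFull (D.Q * D.R)) σ G₁ = G₁ := by
    intro σ
    set s := arithmeticRingAut (modularFunctionFieldFull (D.Q * D.R)) σ with hs
    have h1 : (s G₁ / G₁) ^ e = 1 := by
      rw [div_pow, ← map_pow, hG₁e, map_pow, hs, arithmeticRingAut_uF,
        div_self (pow_ne_zero m hu0)]
    have h2 : lc D (s G₁ / G₁) = 1 := by
      have h3 : lc D (s G₁ / G₁) * lc D G₁ = lc D (s G₁) := by
        rw [← lc_mul, div_mul_cancel₀ _ hG₁0]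
      rw [hlc₁, mul_one] at h3
      rw [h3, hs, lc_arithmeticRingAut, hlc₁, map_one]
    have h4 := eq_one_of_pow_eq_one D he h1 h2
    exact (div_eq_one_iff_eq hG₁0).mp h4
  -- the constant `x = G₁ w(G₁)`
  set x := G₁ * atkinLehner D G₁ with hx
  have hxe : x ^ e = ((D.Q : modularFunctionFieldBar (D.Q * D.R)) ^ 12) ^ m := by
    rw [hx, mul_pow, ← map_pow, hG₁e, map_pow, ← mul_pow, mul_comm u, hu, atkinLehner_uF_mul]
  have hQ0 : (D.Q : Qb) ≠ 0 := by exact_mod_cast (NeZero.ne D.Q)
  have hxalg : IsAlgebraic Qb x := by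
    refine ⟨Polynomial.X ^ e - Polynomial.C (((D.Q : Qb) ^ 12) ^ m), ?_, ?_⟩
    · exact Polynomial.X_pow_sub_C_ne_zero he _
    · simp [hxe]
  obtain ⟨c, hc⟩ := exists_const_of_isAlgebraic hxalg
  have hce : c ^ e = ((D.Q : Qb) ^ 12) ^ m := by
    apply (algebraMap Qb (modularFunctionFieldBar (D.Q * D.R))).injective
    rw [map_pow, hc, hxe, map_pow, map_pow, map_natCast]
  -- `c` is rational
  have hcfix : ∀ σ : Qb ≃ₐ[ℚ] Qb, σ c = c := by
    intro σ
    apply (algebraMap Qb (modularFunctionFieldBar (D.Q * D.R))).injective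
    rw [← arithmeticRingAut_algebraMap (modularFunctionFieldFull (D.Q * D.R)) σ c, hc, hx, map_mul,
      ← atkinLehner_arithmeticRingAut, hfix σ]
  haveI hgal : IsGalois ℚ Qb := by
    have : Algebra.IsAlgebraic ℚ (AlgebraicClosure ℚ) := AlgebraicClosure.isAlgebraic ℚ
    have : IsAlgClosure ℚ (AlgebraicClosure ℚ) := ⟨inferInstance, inferInstance⟩
    infer_instance
  obtain ⟨r, hr⟩ := (InfiniteGalois.mem_range_algebraMap_iff_fixed (k := ℚ) (K := Qb) c).mpr hcfix
  have hre : r ^ e = ((D.Q : ℚ) ^ 12) ^ m := by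
    apply (algebraMap ℚ Qb).injective
    rw [map_pow, hr, hce, map_pow, map_pow, map_natCast]
  -- valuations
  haveI : Fact D.Q.Prime := ⟨hQ⟩
  have hr0 : r ≠ 0 := by
    rintro rfl
    rw [zero_pow he.ne'] at hre
    have hQq : (D.Q : ℚ) ≠ 0 := by exact_mod_cast (NeZero.ne D.Q)
    exact pow_ne_zero m (pow_ne_zero 12 hQq) hre.symm
  have hv := congrArg (padicValRat D.Q) hre
  rw [padicValRat.pow r, ← pow_mul, padicValRat.pow (D.Q : ℚ), padicValRat.self hQ.one_lt] at hv
  have hdvd : (e : ℤ) ∣ ((12 * m : ℕ) : ℤ) := by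
    refine ⟨padicValRat D.Q r, ?_⟩
    rw [hv]
    push_cast
    ring
  exact_mod_cast hdvd

end Core

end Fermat.Agent.ED
end
end MergeWrap_E_S15_CuspCore
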