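import Fermat.Agent.MUL.E.S15.Interfaces
import Fermat.Agent.MUL.E.S12.ZeroComp
import Fermat.Agent.MUL.Lib.MultRed.Main
import Fermat.Agent.MUL.Orig.Lib.EllRed.Galois
import Fermat.Agent.MUL.Orig.Lib.FrobDensity.Bridge
import Fermat.Agent.MUL.E.P.Rational
import Fermat.Agent.MUL.Orig.E.MC.Statements

section MergeWrap_E_S15_ZeroCompOrder -- from E/S15/ZeroCompOrder.lean

/-!
# Cluster E' (Mazur), S15 side, seat (EL) (helper45): `ZeroCompOrder`

A rational point `Q` of prime order `p` which lies in the zero component at a prime `ℓ ≠ p` of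
multiplicative reduction forces `p ∣ ℓ² - 1`.

Proof: in nodal normal form the reduction of `Q` is a nonsingular point of the nodal cubic over the
residue field, the character `w = (y - αx)/(y - βx)` (`Lib/MultRed/Char`) is injective and
multiplicative, so `w(Q̄)` has exact order `p`; the coordinates of `Q̄` and of the node are fixed by
the Frobenius `z ↦ z ^ ℓ` and the two tangent directions are fixed or swapped, so
`w ^ ℓ = w` or `w ^ ℓ = w⁻¹`.
-/

set_option autoImplicit false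
set_option linter.unusedSectionVars false

open WeierstrassCurve WeierstrassCurve.Affine

namespace Fermat.Agent.ES15

section Algebra

variable {k : Type*} [Field k]

/-- uniqueness of the singular point of a cubic whose translate has `b₂ ≠ 0` -/
lemma sing_unique {a₁ a₂ a₃ a₄ a₆ ρ τ ρ₂ τ₂ : k}
    (h1 : a₃ + ρ * a₁ + 2 * τ = 0)
    (h2 : a₄ + 2 * ρ * a₂ - τ * a₁ + 3 * ρ ^ 2 = 0)
    (h3 : a₆ + ρ * a₄ + ρ ^ 2 * a₂ + ρ ^ 3 - τ * a₃ - τ ^ 2 - ρ * τ * a₁ = 0)
    (g1 : a₃ + ρ₂ * a₁ + 2 * τ₂ = 0)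
    (g2 : a₄ + 2 * ρ₂ * a₂ - τ₂ * a₁ + 3 * ρ₂ ^ 2 = 0)
    (g3 : a₆ + ρ₂ * a₄ + ρ₂ ^ 2 * a₂ + ρ₂ ^ 3 - τ₂ * a₃ - τ₂ ^ 2 - ρ₂ * τ₂ * a₁ = 0)
    (hb : a₁ ^ 2 + 4 * (a₂ + 3 * ρ) ≠ 0) : ρ₂ = ρ ∧ τ₂ = τ := by
  set ξ := ρ₂ - ρ with hξ
  set η := τ₂ - τ with hη
  set c := a₂ + 3 * ρ with hc
  have i1 : a₁ * ξ + 2 * η = 0 := by
    rw [hξ, hη]; linear_combination g1 - h1
  have i2 : 3 * ξ ^ 2 + 2 * c * ξ - a₁ * η = 0 := by
    rw [hξ, hη, hc]; linear_combination g2 - h2
  have i3 : ξ ^ 3 + c * ξ ^ 2 - η ^ 2 - a₁ * ξ * η = 0 := by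
    rw [hξ, hη, hc]; linear_combination g3 - h3 - (ρ₂ - ρ) * h2 + (τ₂ - τ) * h1
  have j1 : ξ * (6 * ξ + (a₁ ^ 2 + 4 * c)) = 0 := by
    linear_combination 2 * i2 + a₁ * i1
  have j2 : ξ ^ 2 * (4 * ξ + (a₁ ^ 2 + 4 * c)) = 0 := by
    linear_combination 4 * i3 + (2 * η + a₁ * ξ) * i1 - 2 * a₁ * ξ * i1 + 2 * a₁ * ξ * i1
      - 2 * (2 * η - a₁ * ξ) * i1 + 2 * (2 * η - a₁ * ξ) * i1
  have hξ0 : ξ = 0 := by
    by_contra hne
    have k1 := (mul_eq_zero.mp j1).resolve_left hne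
    have k2 := (mul_eq_zero.mp j2).resolve_left (pow_ne_zero 2 hne)
    have k3 : 2 * ξ = 0 := by linear_combination k1 - k2
    apply hb
    linear_combination k1 - 3 * k3
  have hη0 : η = 0 := by
    rw [hξ0] at i3
    have : η ^ 2 = 0 := by linear_combination -i3
    exact pow_eq_zero_iff (two_ne_zero) |>.mp this
  exact ⟨sub_eq_zero.mp hξ0, sub_eq_zero.mp hη0⟩

/-- a ring endomorphism fixing `α + β` and `α β` fixes or swaps `α` and `β` -/
lemma fix_or_swap (F : k →+* k) {α β : k} (hs : F (α + β) = α + β) (hp : F (α * β) = α * β) :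
    (F α = α ∧ F β = β) ∨ (F α = β ∧ F β = α) := by
  have h0 : (F α - α) * (F α - β) = 0 := by
    have e : F α ^ 2 - (α + β) * F α + α * β = F (α ^ 2 - (α + β) * α + α * β) := by
      rw [map_add, map_sub, map_mul, map_pow, hs, hp]
    have z : α ^ 2 - (α + β) * α + α * β = 0 := by ring
    rw [z, map_zero] at e
    linear_combination e
  have hsum : F α + F β = α + β := by rw [← map_add, hs]
  rcases mul_eq_zero.mp h0 with h | h
  · left
    have hα : F α = α := sub_eq_zero.mp h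
    exact ⟨hα, by linear_combination hsum - hα⟩
  · right
    have hα : F α = β := sub_eq_zero.mp h
    exact ⟨hα, by linear_combination hsum - hα⟩

end Algebra

section Main

open Fermat.Agent.MultRed Fermat.Agent.EllRed Fermat.Agent.VarChange S05H5 S05H65 S05H75
  Fermat.Agent.ES12 IsLocalRing

local notation "Qb" => AlgebraicClosure ℚ
local notation "GQb" => (AlgebraicClosure ℚ ≃ₐ[ℚ] AlgebraicClosure ℚ)

/-- a nonzero element of a field with `u ^ p = 1`, `u ≠ 1` and `u ^ ℓ = u` or `u ^ ℓ = u⁻¹`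
forces `p ∣ ℓ² - 1` -/
lemma dvd_sq_sub_one_of_pow {k : Type*} [Field k] {p ℓ : ℕ} (hp : p.Prime) (hℓ : 1 ≤ ℓ) {u : k}
    (hu0 : u ≠ 0) (hup : u ^ p = 1) (hu1 : u ≠ 1) (h : u ^ ℓ = u ∨ u ^ ℓ = u⁻¹) :
    p ∣ ℓ ^ 2 - 1 := by
  have : Fact p.Prime := ⟨hp⟩
  have hord : orderOf u = p := orderOf_eq_prime hup hu1
  have hfac : ℓ ^ 2 - 1 = (ℓ - 1) * (ℓ + 1) := by
    obtain ⟨m, rfl⟩ : ∃ m, ℓ = m + 1 := ⟨ℓ - 1, by omega⟩
    have : (m + 1) ^ 2 = m * (m + 1 + 1) + 1 := by ring
    rw [this]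
    simp
  rw [hfac]
  rcases h with h | h
  · apply Dvd.dvd.mul_right
    rw [← hord]
    apply orderOf_dvd_of_pow_eq_one
    have e : u ^ (ℓ - 1) * u = 1 * u := by
      rw [← pow_succ, Nat.sub_add_cancel hℓ, h, one_mul]
    exact mul_right_cancel₀ hu0 e
  · apply Dvd.dvd.mul_left
    rw [← hord]
    apply orderOf_dvd_of_pow_eq_one
    rw [pow_succ, h, inv_mul_cancel₀ hu0]

/-- **(EL)** -/
theorem zeroCompOrder {p : ℕ} (hp : p.Prime) : ZeroCompOrder p := by
  classical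
  intro W Q hfix hord ℓ hℓ hℓp hdvd hc₄ A hA hz
  have : Fact ℓ.Prime := ⟨hℓ⟩
  obtain ⟨r, t, α, β, hr, ht, nf, -⟩ := exists_nodalNF W hdvd hc₄ A hA
  set E : Affine Qb := ((W.map (Int.castRingHom ℚ))⁄Qb).toAffine with hE
  set E' : Affine Qb := ((transl r t) • ((W.map (Int.castRingHom ℚ))⁄Qb)).toAffine with hE'
  have hint := intCoeff_map_int W A
  have hrA : r ∈ A := (A.valuation_le_one_iff _).mp hr
  have htA : t ∈ A := (A.valuation_le_one_iff _).mp ht
  have hαA : α ∈ A := (A.valuation_le_one_iff _).mp nf.vα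
  have hβA : β ∈ A := (A.valuation_le_one_iff _).mp nf.vβ
  have hvℓ : A.valuation ((ℓ : ℕ) : Qb) < 1 := A.mem_nonunits_iff.mp hA
  have hchar : CharP (ResidueField A) ℓ := charP_resField_of_val hℓ hvℓ
  -- `Q` is affine with fixed coordinates
  have hQ0 : Q ≠ 0 := by
    intro h0
    rw [h0, addOrderOf_zero] at hord
    exact hp.one_lt.ne hord
  have hpQ : p • Q = 0 := by rw [← hord]; exact addOrderOf_nsmul_eq_zero Q
  rcases hQ : Q with _ | ⟨x, y, hxy⟩
  · exact absurd hQ hQ0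
  have hσxy : ∀ σ : GQb, σ x = x ∧ σ y = y := by
    intro σ
    have h1 := hfix σ
    rw [hQ, Point.algEquiv_smul_def, Point.map_some] at h1
    simpa using h1
  -- the point in normal form
  have h' : E'.Nonsingular (x - r) (y - t) := by
    rw [hE', vc_nonsingular_iff, vcX_transl, vcY_transl, sub_add_cancel, sub_add_cancel]
    exact hxy
  have hQQ' : vcHom (W₁ := E) (transl r t) rfl (Point.some (x - r) (y - t) h') = Q := by
    rw [hQ, vcHom_apply, vcFun_some]
    simp only [vcX_transl, vcY_transl, sub_add_cancel]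
  have hpQ' : p • (Point.some (x - r) (y - t) h' : E'.Point) = 0 := by
    apply vcHom_injective (W₁ := E) (transl r t) rfl
    rw [map_nsmul, hQQ', map_zero]
    exact hpQ
  -- `E0`
  have hns : ¬ IsSingPt A.valuation Q := by
    rw [not_isSingPt_iff_inE0v]
    exact (inZeroComponentAt_iff_inE0v W A Q).mp hz
  have hnn : ¬ IsNodePt A.valuation (Point.some (x - r) (y - t) h' : E'.Point) := by
    intro hn
    apply hns
    rw [← hQQ']
    exact isSingPt_vcHom_of_isNodePt A.valuation E hr nf _ hn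
  have hE0 : InE0 A (redCurve A E') (Point.some (x - r) (y - t) h' : E'.Point) :=
    nf.inE0_of_not_isNodePt hnn
  have hvp : A.valuation ((p : ℕ) : Qb) = 1 :=
    valuation_natCast_eq_one hℓ hA (fun hd => hℓp ((Nat.prime_dvd_prime_iff_eq hℓ hp).mp hd))
  have hnG1 : ¬ InG1 A.valuation (Point.some (x - r) (y - t) h' : E'.Point) := by
    intro hG
    have h0 : (Point.some (x - r) (y - t) h' : E'.Point) = 0 :=
      eq_of_sub_inG1_of_torsion nf.intCoeff hvp hpQ' (smul_zero p) (by rwa [sub_zero])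
    exact Point.some_ne_zero h' h0
  obtain ⟨x', y', hxy', hQe, hx'A, hnsk⟩ := hE0.resolve_left hnG1
  obtain ⟨rfl, rfl⟩ : x - r = x' ∧ y - t = y' := by
    have := hQe
    simp only [Point.some.injEq] at this
    exact this
  have hxA : x ∈ A := by
    have := A.add_mem _ _ hx'A hrA
    rwa [sub_add_cancel] at this
  have hy'A : y - t ∈ A := (isReduction_redCurve nf.intCoeff).mem_y hxy'.1 hx'A
  have hyA : y ∈ A := by
    have := A.add_mem _ _ hy'A htA
    rwa [sub_add_cancel] at this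
  -- the character
  have nc := nf.nodeCubic
  have hred : red0 A (redCurve A E') (Point.some (x - r) (y - t) h' : E'.Point)
      = Point.some (res A (x - r)) (res A (y - t)) hnsk := red0_some h' hx'A hnsk
  set u : ResidueField A := (res A (y - t) - res A α * res A (x - r))
    / (res A (y - t) - res A β * res A (x - r)) with hu
  have hu0 : u ≠ 0 := by
    have := nc.nodeChar_ne_zero (Point.some (res A (x - r)) (res A (y - t)) hnsk)
    rwa [nodeChar_some] at this
  have hu1 : u ≠ 1 := by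
    intro h1
    have := (nc.nodeChar_eq_one_iff (Point.some (res A (x - r)) (res A (y - t)) hnsk)).mp
      (by rw [nodeChar_some]; exact h1)
    exact Point.some_ne_zero hnsk this
  have hup : u ^ p = 1 := by
    have h1 := nc.nodeChar_nsmul p (Point.some (res A (x - r)) (res A (y - t)) hnsk)
    rw [nodeChar_some, ← hred, ← red0_nsmul (isReduction_redCurve nf.intCoeff)
      (nf.inE0_of_not_isNodePt hnn) p, hpQ', red0_zero, nodeChar_zero] at h1
    exact h1.symm
  -- Frobenius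
  obtain ⟨σ, hσ, -, -⟩ := Fermat.Agent.FrobBridge.exists_isFrobeniusAt_of_liesOver A ℓ hℓ hA
  have hfr : ∀ (z : Qb), z ∈ A → σ z = z → res A z ^ ℓ = res A z := by
    intro z hz hσz
    have := res_apply_of_isFrobeniusAt hσ hz
    rw [hσz] at this
    exact this.symm
  have fx : res A x ^ ℓ = res A x := hfr x hxA (hσxy σ).1
  have fy : res A y ^ ℓ = res A y := hfr y hyA (hσxy σ).2
  have f1 : res A E.a₁ ^ ℓ = res A E.a₁ := hfr _ hint.mem_a₁ (σ.commutes _)
  have f2 : res A E.a₂ ^ ℓ = res A E.a₂ := hfr _ hint.mem_a₂ (σ.commutes _)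
  have f3 : res A E.a₃ ^ ℓ = res A E.a₃ := hfr _ hint.mem_a₃ (σ.commutes _)
  have f4 : res A E.a₄ ^ ℓ = res A E.a₄ := hfr _ hint.mem_a₄ (σ.commutes _)
  have f6 : res A E.a₆ ^ ℓ = res A E.a₆ := hfr _ hint.mem_a₆ (σ.commutes _)
  have h2A : (2 : Qb) ∈ A := by exact_mod_cast natCast_mem A 2
  have h3A : (3 : Qb) ∈ A := by exact_mod_cast natCast_mem A 3
  -- the equations of the node
  have e3 : res A E.a₃ + res A r * res A E.a₁ + 2 * res A t = 0 := by
    have h := nf.a₃
    rw [hE', transl_a₃] at h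
    have h0 := congrArg (res A) h
    rw [res_zero, res_add (A.add_mem _ _ hint.mem_a₃ (A.mul_mem _ _ hrA hint.mem_a₁))
      (A.mul_mem _ _ h2A htA), res_add hint.mem_a₃ (A.mul_mem _ _ hrA hint.mem_a₁),
      res_mul hrA hint.mem_a₁, res_mul h2A htA, res_ofNat] at h0
    exact h0
  have e4 : res A E.a₄ + 2 * res A r * res A E.a₂ - res A t * res A E.a₁ + 3 * res A r ^ 2
      = 0 := by
    have h := nf.a₄
    rw [hE', transl_a₄] at h
    have hA' : ((⟨E.a₄, hint.mem_a₄⟩ : A) + 2 * ⟨r, hrA⟩ * ⟨E.a₂, hint.mem_a₂⟩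
        - ⟨t, htA⟩ * ⟨E.a₁, hint.mem_a₁⟩ + 3 * ⟨r, hrA⟩ ^ 2 : A) = 0 := by
      apply Subtype.ext
      push_cast
      exact h
    have h0 := congrArg (residue A) hA'
    simp only [map_add, map_sub, map_mul, map_pow, map_ofNat, map_zero, ← res_of_mem] at h0
    exact h0
  have e6 : res A E.a₆ + res A r * res A E.a₄ + res A r ^ 2 * res A E.a₂ + res A r ^ 3
      - res A t * res A E.a₃ - res A t ^ 2 - res A r * res A t * res A E.a₁ = 0 := by
    have h : res A E'.a₆ = 0 := (res_eq_zero_iff nf.intCoeff.mem_a₆).mpr nf.va₆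
    rw [res_of_mem nf.intCoeff.mem_a₆] at h
    have hA' : (⟨E'.a₆, nf.intCoeff.mem_a₆⟩ : A) = (⟨E.a₆, hint.mem_a₆⟩ : A)
        + ⟨r, hrA⟩ * ⟨E.a₄, hint.mem_a₄⟩ + ⟨r, hrA⟩ ^ 2 * ⟨E.a₂, hint.mem_a₂⟩ + ⟨r, hrA⟩ ^ 3
        - ⟨t, htA⟩ * ⟨E.a₃, hint.mem_a₃⟩ - ⟨t, htA⟩ ^ 2
        - ⟨r, hrA⟩ * ⟨t, htA⟩ * ⟨E.a₁, hint.mem_a₁⟩ := by
      apply Subtype.ext
      push_cast
      rw [hE', transl_a₆]
    rw [hA'] at h
    simp only [map_add, map_sub, map_mul, map_pow, ← res_of_mem] at h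
    exact h
  have hsumk : res A α + res A β = -res A E.a₁ := by
    have h := nf.hsum
    rw [hE', transl_a₁] at h
    have hA' : ((⟨α, hαA⟩ : A) + ⟨β, hβA⟩ : A) = -⟨E.a₁, hint.mem_a₁⟩ := by
      apply Subtype.ext
      push_cast
      exact h
    have h0 := congrArg (residue A) hA'
    simp only [map_add, map_neg, ← res_of_mem] at h0
    exact h0
  have hprodk : res A α * res A β = -(res A E.a₂ + 3 * res A r) := by
    have h := nf.hprod
    rw [hE', transl_a₂] at h
    have hA' : ((⟨α, hαA⟩ : A) * ⟨β, hβA⟩ : A) = -(⟨E.a₂, hint.mem_a₂⟩ + 3 * ⟨r, hrA⟩) := by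
      apply Subtype.ext
      push_cast
      exact h
    have h0 := congrArg (residue A) hA'
    simp only [map_add, map_mul, map_neg, map_ofNat, ← res_of_mem] at h0
    exact h0
  have hb : res A E.a₁ ^ 2 + 4 * (res A E.a₂ + 3 * res A r) ≠ 0 := by
    have e : res A E.a₁ ^ 2 + 4 * (res A E.a₂ + 3 * res A r) = (res A α - res A β) ^ 2 := by
      linear_combination (-(res A α + res A β) + res A E.a₁) * hsumk + 4 * hprodk
    rw [e]
    exact pow_ne_zero 2 (sub_ne_zero.mpr nc.hne)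
  -- the node is rational
  set Fr : ResidueField A →+* ResidueField A := frobenius (ResidueField A) ℓ with hFr
  have g3 : res A E.a₃ + res A r ^ ℓ * res A E.a₁ + 2 * res A t ^ ℓ = 0 := by
    have h0 := congrArg Fr e3
    simp only [map_add, map_mul, map_ofNat, map_zero, hFr, frobenius_def] at h0
    rw [f3, f1] at h0
    exact h0
  have g4 : res A E.a₄ + 2 * res A r ^ ℓ * res A E.a₂ - res A t ^ ℓ * res A E.a₁
      + 3 * (res A r ^ ℓ) ^ 2 = 0 := by
    have h0 := congrArg Fr e4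
    simp only [map_add, map_sub, map_mul, map_pow, map_ofNat, map_zero, hFr, frobenius_def]
      at h0
    rw [f4, f2, f1] at h0
    exact h0
  have g6 : res A E.a₆ + res A r ^ ℓ * res A E.a₄ + (res A r ^ ℓ) ^ 2 * res A E.a₂
      + (res A r ^ ℓ) ^ 3 - res A t ^ ℓ * res A E.a₃ - (res A t ^ ℓ) ^ 2
      - res A r ^ ℓ * res A t ^ ℓ * res A E.a₁ = 0 := by
    have h0 := congrArg Fr e6
    simp only [map_add, map_sub, map_mul, map_pow, map_zero, hFr, frobenius_def] at h0
    rw [f6, f4, f2, f3, f1] at h0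
    exact h0
  obtain ⟨fr, ft⟩ := sing_unique e3 e4 e6 g3 g4 g6 hb
  -- the tangent directions are fixed or swapped
  have hFs : Fr (res A α + res A β) = res A α + res A β := by
    rw [hsumk, map_neg, hFr, frobenius_def, f1]
  have hFp : Fr (res A α * res A β) = res A α * res A β := by
    rw [hprodk, map_neg, map_add, map_mul, map_ofNat, hFr, frobenius_def, frobenius_def, f2, fr]
  have hX : Fr (res A (x - r)) = res A (x - r) := by
    rw [res_sub hxA hrA, map_sub, hFr, frobenius_def, frobenius_def, fx, fr]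
  have hY : Fr (res A (y - t)) = res A (y - t) := by
    rw [res_sub hyA htA, map_sub, hFr, frobenius_def, frobenius_def, fy, ft]
  have hFu : u ^ ℓ = Fr u := by rw [hFr, frobenius_def]
  have hFu' : Fr u = (res A (y - t) - Fr (res A α) * res A (x - r))
      / (res A (y - t) - Fr (res A β) * res A (x - r)) := by
    rw [hu, map_div₀, map_sub, map_sub, map_mul, map_mul, hX, hY]
  apply dvd_sq_sub_one_of_pow hp hℓ.one_le hu0 hup hu1
  rw [hFu, hFu']
  rcases fix_or_swap Fr hFs hFp with ⟨h1, h2⟩ | ⟨h1, h2⟩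
  · left
    rw [h1, h2]
  · right
    rw [h1, h2, hu, inv_div]

end Main

end Fermat.Agent.ES15
end MergeWrap_E_S15_ZeroCompOrder
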