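import Mathlib
import Fermat.Agent.MUL.E.S15.Interfaces
import Fermat.Agent.MUL.E.S15.EtaNorm
import Fermat.Agent.MUL.Lib.Kronecker.Prod
import Fermat.Agent.MUL.Lib.HeckeInputs.Qbar
import Fermat.Agent.MUL.Lib.BadRed.Mod.UCuspDegFinal
import Fermat.Agent.MUL.Lib.RR.OfModularBar
import Fermat.Agent.MUL.E.S15.CuspOrder

section MergeWrap_E_S15_CuspHecke -- from E/S15/CuspHecke.lean

set_option autoImplicit false
set_option linter.unusedSectionVars false
set_option linter.style.haveILetI false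

noncomputable section

open ModularCurve AlgebraicCurve

set_option synthInstance.maxHeartbeats 400000

namespace Fermat.Agent.ES15

open Fermat.Agent.BadRed Fermat.Agent.Kronecker Fermat.Agent.F3G

local notation "Qb" => AlgebraicClosure ℚ

/-- `jB p` is the `j` of the S24 library. -/
theorem ch_jB_eq_jBar (p : ℕ) [NeZero p] : jB p = Fermat.Agent.S24.jBar p := by
  apply Subtype.ext
  show coeffEmb Qb (qExpand ℚ 1 jq) = coeffEmb Qb jq
  rw [qExpand_one_apply]

/-- the divisor `(P0) - (∞)`. -/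
def chDiv (p : ℕ) (P0 : Pl p) : Divisor Qb (modularFunctionFieldBar p) :=
  Finsupp.single P0 1 - Finsupp.single (cuspInf p) 1

theorem chDiv_mem_degZero (p : ℕ) [NeZero p] (P0 : Pl p) :
    chDiv p P0 ∈ Divisor.degZero (K := Qb) (F := modularFunctionFieldBar p) := by
  have h1 := (Fermat.Agent.RRMod.isRRField_bar p).deg_one
  rw [Divisor.mem_degZero, chDiv, map_sub, Divisor.degree_single, Divisor.degree_single, h1, h1]
  simp

theorem ch_cuspClass_eq (p : ℕ) [NeZero p] (P0 : Pl p) :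
    cuspClass p P0 = Pic0.mk ⟨chDiv p P0, chDiv_mem_degZero p P0⟩ := by
  unfold cuspClass clsDiff clsOf
  exact dif_pos (chDiv_mem_degZero p P0)

/-- the divisor of `u = Δ(z)/Δ(pz)` on `X₀(p)`: `div u = n ((P0) - (∞))`, `n = ord_{P0} u ≠ 0`. -/
theorem ch_div_uF {p : ℕ} [NeZero p] (hp : p.Prime) (P0 : Pl p) (hP0 : IsCuspZero p P0)
    (huniq : ∀ P0' : Pl p, IsCuspZero p P0' → P0' = P0) :
    P0.ord (uF p p dvd_rfl) ≠ 0 ∧
      ∀ v : Pl p, P0.ord (uF p p dvd_rfl) * chDiv p P0 v = v.ord (uF p p dvd_rfl) := by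
  classical
  set u := uF p p dvd_rfl with hu
  have hR := Fermat.Agent.RRMod.isRRField_bar p
  have hn0 : P0.ord u ≠ 0 := by
    rw [hu, ← ord_jBar_neg_iff_uF hp dvd_rfl P0, ← ch_jB_eq_jBar]
    exact hP0.2
  refine ⟨hn0, ?_⟩
  have hne : P0 ≠ cuspInf p := hP0.1
  -- places outside `{P0, ∞}`
  have hother : ∀ v : Pl p, v ≠ P0 → v ≠ cuspInf p → v.ord u = 0 := by
    intro v hv1 hv2
    apply ord_uF_eq_zero hp dvd_rfl v
    by_contra hneg
    rw [not_le, ← ch_jB_eq_jBar] at hneg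
    exact hv1 (huniq v ⟨hv2, hneg⟩)
  -- degree zero
  have hdeg := Fermat.Agent.RR.degree_divOf hR u
  have hsupp : (Fermat.Agent.RR.divOf hR u).support ⊆ {P0, cuspInf p} := by
    intro v hv
    rw [Finsupp.mem_support_iff, Fermat.Agent.RR.divOf_apply] at hv
    rw [Finset.mem_insert, Finset.mem_singleton]
    by_contra hcon
    rw [not_or] at hcon
    exact hv (hother v hcon.1 hcon.2)
  rw [Fermat.Agent.S24Diff.degree_eq_sum_of_deg_eq_one hR.deg_one _ _ hsupp,
    Finset.sum_pair hne, Fermat.Agent.RR.divOf_apply, Fermat.Agent.RR.divOf_apply] at hdeg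
  intro v
  unfold chDiv
  rw [Finsupp.sub_apply]
  by_cases hv1 : v = P0
  · subst hv1
    rw [Finsupp.single_eq_same, Finsupp.single_eq_of_ne hne]
    ring
  · by_cases hv2 : v = cuspInf p
    · subst hv2
      rw [Finsupp.single_eq_of_ne (Ne.symm hne), Finsupp.single_eq_same]
      linarith
    · rw [Finsupp.single_eq_of_ne hv1, Finsupp.single_eq_of_ne hv2, hother v hv1 hv2]
      ring

/-- **the norm of `u(q^r)`**: `T_r u = c₀ u^{r+1}`. -/
theorem ch_heckeFun_uF {p : ℕ} [NeZero p] (hp : p.Prime) (r : ℕ) [NeZero r] (hr : r.Prime)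
    (hrp : r ≠ p) :
    ∃ c : Qb, c ≠ 0 ∧ heckeFun Qb p r (uF p p dvd_rfl) =
      algebraMap Qb (modularFunctionFieldBar p) c * uF p p dvd_rfl ^ (r + 1) := by
  have hrN : ¬ r ∣ p := fun h => hrp ((Nat.prime_dvd_prime_iff_eq hr hp).mp h)
  obtain ⟨ζ, hζ, hprod⟩ := normProductFormula p r hr hrN
  have hcop : Nat.Coprime p r := (Nat.coprime_primes hp hr).mpr (Ne.symm hrp)
  obtain ⟨c, hc, hΦ⟩ := enPhi_uSer (K := Qb) hr p hcop ζ hζ
  refine ⟨c, hc, ?_⟩
  apply Subtype.ext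
  apply qExpand_injective (R := Qb) (N := r)
  rw [hprod (uF p p dvd_rfl), coe_uF, hΦ]
  show _ = qExpand Qb r ((algebraMap Qb (LaurentSeries Qb) c) * (uSer Qb p) ^ (r + 1))
  rw [map_mul, map_pow, algebraMap_laurentSeries_eq_single, qExpand_single, mul_zero,
    HahnSeries.C_apply]

/-- **`T_r c = (1 + r) c`** on the cuspidal class, for every prime `r ≠ p`. -/
theorem heckeOperatorBar_cuspClass_of_uniq {p : ℕ} [NeZero p] (hp : p.Prime) (r : Nat.Primes)
    (hrp : (r : ℕ) ≠ p) (P0 : Pl p) (hP0 : IsCuspZero p P0)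
    (huniq : ∀ P0' : Pl p, IsCuspZero p P0' → P0' = P0) :
    heckeOperatorBar p r (cuspClass p P0) = (1 + (r : ℕ)) • cuspClass p P0 := by
  haveI : NeZero (r : ℕ) := ⟨r.2.ne_zero⟩
  set u := uF p p dvd_rfl with hu
  have hu0 : u ≠ 0 := uF_ne_zero p p dvd_rfl
  obtain ⟨hn0, hD⟩ := ch_div_uF hp P0 hP0 huniq
  obtain ⟨c, hc, hfun⟩ := ch_heckeFun_uF hp (r : ℕ) r.2 hrp
  obtain ⟨E, hE1, hE2⟩ := heckeOperatorAlong_mk_of_zsmul_eq_div
    (Fermat.Agent.HeckeInputs.hi_heckeInputsAlong_Qbar p (r : ℕ))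
    ⟨chDiv p P0, chDiv_mem_degZero p P0⟩ (P0.ord u) hu0 hD
  rw [ch_cuspClass_eq, heckeOperatorBar_apply]
  refine hE1.trans ?_
  have hEq : E = (1 + (r : ℕ)) • (⟨chDiv p P0, chDiv_mem_degZero p P0⟩ :
      Divisor.degZero (K := Qb) (F := modularFunctionFieldBar p)) := by
    apply Subtype.ext
    ext v
    have h1 := hE2 v
    have hcF : algebraMap Qb (modularFunctionFieldBar p) c ≠ 0 := by
      rwa [ne_eq, map_eq_zero_iff _ (algebraMap Qb _).injective]
    rw [hfun, v.ord_mul hcF (pow_ne_zero _ hu0), Fermat.Agent.S24Res.ord_algebraMap, zero_add,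
      ← zpow_natCast, v.ord_zpow, ← hD v] at h1
    have h2 : P0.ord u * (E : Divisor Qb (modularFunctionFieldBar p)) v =
        P0.ord u * (((r : ℕ) + 1 : ℕ) * chDiv p P0 v) := by
      rw [h1]
      ring
    have h3 := mul_left_cancel₀ hn0 h2
    rw [h3]
    show _ = ((1 + (r : ℕ)) • chDiv p P0) v
    rw [Finsupp.smul_apply, nsmul_eq_mul]
    push_cast
    ring
  rw [hEq]
  exact map_nsmul (QuotientAddGroup.mk' _) _ _

/-- **(D2, Hecke part)** `T_r c = (1 + r) c`, from the uniqueness of the cusp `0`. -/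
theorem heckeOperatorBar_cuspClass {p : ℕ} [NeZero p] (hp : p.Prime) (hC : CuspZeroData p)
    (r : Nat.Primes) (hrp : (r : ℕ) ≠ p) (P0 : Pl p) (hP0 : IsCuspZero p P0) :
    heckeOperatorBar p r (cuspClass p P0) = (1 + (r : ℕ)) • cuspClass p P0 :=
  heckeOperatorBar_cuspClass_of_uniq hp r hrp P0 hP0 fun P0' h => hC.uniq P0' P0 h hP0

end Fermat.Agent.ES15
end
end MergeWrap_E_S15_CuspHecke
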